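import Fermat.Agent.S16.Theta.Defs

/-! S16 / Part A: abstract invariance of the theta series of an isotropic subgroup. -/

set_option autoImplicit false

open Complex
open UpperHalfPlane hiding I
open scoped Real MatrixGroups ModularForm Manifold

namespace Fermat.Agent.S16.Theta

variable {D : Type} [AddCommGroup D] [Fintype D] [DecidableEq D] {μ : ℍ → ℂ}

theorem ThetaData.slash_T (T : ThetaData D μ) (a : D) :
    T.Θ a ∣[(2 : ℤ)] ModularGroup.T = T.χ a • T.Θ a := by
  ext z
  rw [ModularForm.SL_slash_apply, modular_T_smul, T.T_law]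
  have hd : denom (ModularGroup.T : SL(2, ℤ)) z = 1 := by
    rw [ModularGroup.denom_apply]
    simp [ModularGroup.coe_T]
  rw [hd]
  simp

theorem ThetaData.slash_S (T : ThetaData D μ) (hμ : ∀ z : ℍ, μ z = -(z : ℂ) ^ 2) (a : D) :
    T.Θ a ∣[(2 : ℤ)] ModularGroup.S = (-T.κ) • ∑ b, T.ψ a b • T.Θ b := by
  ext z
  rw [ModularForm.SL_slash_apply, T.S_law, hμ, ModularGroup.denom_S]
  have hz : (z : ℂ) ≠ 0 := ne_zero z
  simp only [Pi.smul_apply, Finset.sum_apply, smul_eq_mul]
  rw [zpow_neg]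
  field_simp

namespace Abstract

theorem S_inv_eq : (ModularGroup.S)⁻¹ = ModularGroup.S * ModularGroup.S * ModularGroup.S := by
  decide

theorem slash_T_inv (T : ThetaData D μ) (a : D) :
    T.Θ a ∣[(2 : ℤ)] (ModularGroup.T)⁻¹ = (T.χ a)⁻¹ • T.Θ a := by
  have h := congrArg (fun f => f ∣[(2 : ℤ)] (ModularGroup.T)⁻¹) (T.slash_T a)
  simp only [← SlashAction.slash_mul, mul_inv_cancel, SlashAction.slash_one,
    ModularForm.SL_smul_slash] at h
  conv_rhs => rw [h]
  rw [smul_smul, inv_mul_cancel₀ (T.χ_ne a), one_smul]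

/-- if the slash by `γ` maps each generator into a submodule, it maps the span into it -/
theorem slash_span (T : ThetaData D μ) (γ : SL(2, ℤ))
    (h : ∀ a, T.Θ a ∣[(2 : ℤ)] γ ∈ Submodule.span ℂ (Set.range T.Θ)) (f : ℍ → ℂ)
    (hf : f ∈ Submodule.span ℂ (Set.range T.Θ)) :
    f ∣[(2 : ℤ)] γ ∈ Submodule.span ℂ (Set.range T.Θ) := by
  induction hf using Submodule.span_induction with
  | mem x hx => obtain ⟨a, rfl⟩ := hx; exact h a
  | zero => rw [SlashAction.zero_slash]; exact Submodule.zero_mem _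
  | add x y _ _ hx hy => rw [SlashAction.add_slash]; exact Submodule.add_mem _ hx hy
  | smul c x _ hx => rw [ModularForm.SL_smul_slash]; exact Submodule.smul_mem _ c hx

theorem mem_span (T : ThetaData D μ) (a : D) : T.Θ a ∈ Submodule.span ℂ (Set.range T.Θ) :=
  Submodule.subset_span ⟨a, rfl⟩

theorem slash_all (T : ThetaData D μ) (hμ : ∀ z : ℍ, μ z = -(z : ℂ) ^ 2)
    (γ : SL(2, ℤ)) (f : ℍ → ℂ) (hf : f ∈ Submodule.span ℂ (Set.range T.Θ)) :
    f ∣[(2 : ℤ)] γ ∈ Submodule.span ℂ (Set.range T.Θ) := by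
  have hS : ∀ f ∈ Submodule.span ℂ (Set.range T.Θ),
      f ∣[(2 : ℤ)] ModularGroup.S ∈ Submodule.span ℂ (Set.range T.Θ) := by
    refine slash_span T _ fun a => ?_
    rw [T.slash_S hμ]
    exact Submodule.smul_mem _ _ (Submodule.sum_mem _ fun b _ =>
      Submodule.smul_mem _ _ (mem_span T b))
  have hT : ∀ f ∈ Submodule.span ℂ (Set.range T.Θ),
      f ∣[(2 : ℤ)] ModularGroup.T ∈ Submodule.span ℂ (Set.range T.Θ) := by
    refine slash_span T _ fun a => ?_
    rw [T.slash_T]
    exact Submodule.smul_mem _ _ (mem_span T a)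
  have hT' : ∀ f ∈ Submodule.span ℂ (Set.range T.Θ),
      f ∣[(2 : ℤ)] (ModularGroup.T)⁻¹ ∈ Submodule.span ℂ (Set.range T.Θ) := by
    refine slash_span T _ fun a => ?_
    rw [slash_T_inv]
    exact Submodule.smul_mem _ _ (mem_span T a)
  have hS' : ∀ f ∈ Submodule.span ℂ (Set.range T.Θ),
      f ∣[(2 : ℤ)] (ModularGroup.S)⁻¹ ∈ Submodule.span ℂ (Set.range T.Θ) := by
    intro f hf
    rw [S_inv_eq, SlashAction.slash_mul, SlashAction.slash_mul]
    exact hS _ (hS _ (hS _ hf))
  have hγ : γ ∈ Subgroup.closure ({ModularGroup.S, ModularGroup.T} : Set SL(2, ℤ)) := by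
    rw [SpecialLinearGroup.SL2Z_generators]; exact Subgroup.mem_top γ
  induction hγ using Subgroup.closure_induction_right with
  | one => rwa [SlashAction.slash_one]
  | mul_right x hx y hy ih =>
    rw [SlashAction.slash_mul]
    rcases hy with rfl | rfl
    · exact hS _ ih
    · exact hT _ ih
  | mul_inv_cancel x hx y hy ih =>
    rw [SlashAction.slash_mul]
    rcases hy with rfl | rfl
    · exact hS' _ ih
    · exact hT' _ ih

theorem bdd_of_mem_span (T : ThetaData D μ) (f : ℍ → ℂ)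
    (hf : f ∈ Submodule.span ℂ (Set.range T.Θ)) : IsBoundedAtImInfty f := by
  induction hf using Submodule.span_induction with
  | mem x hx => obtain ⟨a, rfl⟩ := hx; exact T.bdd a
  | zero => exact (Filter.const_boundedAtFilter _ (0 : ℂ))
  | add x y _ _ hx hy => exact Filter.BoundedAtFilter.add hx hy
  | smul c x _ hx => exact Filter.BoundedAtFilter.smul c hx

theorem thetaI_mem_span (T : ThetaData D μ) (I : AddSubgroup D) :
    T.thetaI I ∈ Submodule.span ℂ (Set.range T.Θ) :=
  Submodule.sum_mem _ fun a _ => mem_span T a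

end Abstract

/-- every `SL(2,ℤ)`-translate of a `Θ a` is a linear combination of the `Θ b`. -/
theorem ThetaData.slash_mem_span (T : ThetaData D μ) (hμ : ∀ z : ℍ, μ z = -(z : ℂ) ^ 2)
    (γ : SL(2, ℤ)) (a : D) :
    T.Θ a ∣[(2 : ℤ)] γ ∈ Submodule.span ℂ (Set.range T.Θ) :=
  Abstract.slash_all T hμ γ _ (Abstract.mem_span T a)

theorem ThetaData.thetaI_slash_bdd (T : ThetaData D μ) (hμ : ∀ z : ℍ, μ z = -(z : ℂ) ^ 2)
    (I : AddSubgroup D) (γ : SL(2, ℤ)) :
    IsBoundedAtImInfty (T.thetaI I ∣[(2 : ℤ)] γ) :=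
  Abstract.bdd_of_mem_span T _ (Abstract.slash_all T hμ γ _ (Abstract.thetaI_mem_span T I))

theorem ThetaData.thetaI_hol (T : ThetaData D μ) (I : AddSubgroup D) : MDiff (T.thetaI I) := by
  classical
  unfold ThetaData.thetaI
  induction (Finset.univ.filter (· ∈ I)) using Finset.induction_on with
  | empty =>
    rw [Finset.sum_empty]
    exact (mdifferentiable_const (c := (0 : ℂ)) : MDiff fun _ : ℍ => (0 : ℂ))
  | insert a s ha ih =>
    rw [Finset.sum_insert ha]
    exact (T.hol a).add ih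

end Fermat.Agent.S16.Theta
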