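import Mathlib

/-! S16 / Part A: a generation criterion for `Gamma0 p`. -/

set_option autoImplicit false

open scoped MatrixGroups
open ModularGroup

namespace Fermat.Agent.S16.Theta

namespace Gamma0Gen

theorem S_mul_S : S * S = (-1 : SL(2, ℤ)) := by decide

theorem entry_U (n : ℤ) : (S * T ^ n * S⁻¹) 1 0 = -n := by
  rw [S_inv]
  simp [Matrix.SpecialLinearGroup.coe_mul, coe_T_zpow]

theorem entry_g (w k : ℤ) : (S * T ^ w * S * T ^ k * S⁻¹) 1 0 = 1 - w * k := by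
  rw [S_inv]
  simp [Matrix.SpecialLinearGroup.coe_mul, coe_T_zpow]
  ring

theorem entry_ST (j : ℤ) : (S * T ^ j) 1 0 = 1 := by
  simp [Matrix.SpecialLinearGroup.coe_mul, coe_T_zpow, Matrix.mul_apply, Fin.sum_univ_two]

end Gamma0Gen

open Gamma0Gen in
theorem Gamma0_le_of_mem (p : ℕ) (hp : 1 < p) (G : Subgroup SL(2, ℤ)) (hneg : (-1 : SL(2, ℤ)) ∈ G)
    (hT : T ∈ G) (hU : S * T ^ (p : ℤ) * S⁻¹ ∈ G)
    (hg : ∀ j : ℤ, ¬ (p : ℤ) ∣ j → ∃ w k : ℤ, w ≡ j [ZMOD p] ∧ w * k ≡ 1 [ZMOD p] ∧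
      S * T ^ w * S * T ^ k * S⁻¹ ∈ G) :
    CongruenceSubgroup.Gamma0 p ≤ G := by
  set G' : Subgroup SL(2, ℤ) := G ⊓ CongruenceSubgroup.Gamma0 p with hG'
  have hmemΓ : ∀ A : SL(2, ℤ), A ∈ CongruenceSubgroup.Gamma0 p ↔ (p : ℤ) ∣ A 1 0 := by
    intro A
    rw [CongruenceSubgroup.Gamma0_mem, ZMod.intCast_zmod_eq_zero_iff_dvd]
  have hneg' : (-1 : SL(2, ℤ)) ∈ G' := Subgroup.mem_inf.mpr ⟨hneg, (hmemΓ _).mpr (by simp)⟩
  have hT' : T ∈ G' := Subgroup.mem_inf.mpr ⟨hT, (hmemΓ _).mpr (by simp [coe_T])⟩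
  have hU' : S * T ^ (p : ℤ) * S⁻¹ ∈ G' := Subgroup.mem_inf.mpr ⟨hU, (hmemΓ _).mpr (by rw [entry_U]; simp)⟩
  have hUm : ∀ m : ℤ, S * T ^ ((p : ℤ) * m) * S⁻¹ ∈ G' := by
    intro m
    have := G'.zpow_mem hU' m
    rwa [conj_zpow, ← zpow_mul] at this
  let X : SL(2, ℤ) → Prop := fun γ => γ ∈ G' ∨ ∃ h ∈ G', ∃ j : ℤ, γ = h * (S * T ^ j)
  have hXleft : ∀ g ∈ G', ∀ γ, X γ → X (g * γ) := by
    rintro g hgG γ (hγ | ⟨h, hh, j, rfl⟩)
    · exact Or.inl (G'.mul_mem hgG hγ)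
    · exact Or.inr ⟨g * h, G'.mul_mem hgG hh, j, by rw [mul_assoc]⟩
  have hXT : ∀ (n : ℤ) (γ : SL(2, ℤ)), X γ → X (γ * T ^ n) := by
    rintro n γ (hγ | ⟨h, hh, j, rfl⟩)
    · exact Or.inl (G'.mul_mem hγ (G'.zpow_mem hT' n))
    · exact Or.inr ⟨h, hh, j + n, by rw [zpow_add]; group⟩
  have hXS : ∀ γ, X γ → X (γ * S) := by
    rintro γ (hγ | ⟨h, hh, j, rfl⟩)
    · exact Or.inr ⟨γ, hγ, 0, by simp⟩
    · by_cases hj : (p : ℤ) ∣ j
      · obtain ⟨m, rfl⟩ := hj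
        left
        have h1 : h * (S * T ^ ((p : ℤ) * m)) * S = h * (S * T ^ ((p : ℤ) * m) * S⁻¹) * (-1) := by
          rw [← S_mul_S]; group
        rw [h1]
        exact G'.mul_mem (G'.mul_mem hh (hUm m)) hneg'
      · obtain ⟨w, k, hw, hwk, hgG⟩ := hg j hj
        have hg' : S * T ^ w * S * T ^ k * S⁻¹ ∈ G' :=
          Subgroup.mem_inf.mpr ⟨hgG, (hmemΓ _).mpr (by rw [entry_g]; exact Int.modEq_iff_dvd.mp hwk)⟩
        obtain ⟨m, hm⟩ : (p : ℤ) ∣ j - w := Int.modEq_iff_dvd.mp hw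
        right
        refine ⟨h * (S * T ^ ((p : ℤ) * m) * S⁻¹) * (S * T ^ w * S * T ^ k * S⁻¹),
          G'.mul_mem (G'.mul_mem hh (hUm m)) hg', -k, ?_⟩
        rw [← hm]
        group
  have hXSinv : ∀ γ, X γ → X (γ * S⁻¹) := by
    intro γ hγ
    have h1 : γ * S⁻¹ = (-1) * (γ * S) := by
      rw [S_inv, mul_neg, neg_one_mul]
    rw [h1]
    exact hXleft _ hneg' _ (hXS γ hγ)
  have hall : ∀ γ : SL(2, ℤ), X γ := by
    intro γ
    have hγ : γ ∈ Subgroup.closure ({S, T} : Set SL(2, ℤ)) := by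
      rw [SpecialLinearGroup.SL2Z_generators]; exact Subgroup.mem_top γ
    induction hγ using Subgroup.closure_induction_right with
    | one => exact Or.inl G'.one_mem
    | mul_right x hx y hy ih =>
      rcases hy with rfl | rfl
      · exact hXS x ih
      · simpa using hXT 1 x ih
    | mul_inv_cancel x hx y hy ih =>
      rcases hy with rfl | rfl
      · exact hXSinv x ih
      · simpa using hXT (-1) x ih
  intro γ hγ
  rcases hall γ with h | ⟨h, hh, j, rfl⟩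
  · exact (Subgroup.mem_inf.mp h).1
  · exfalso
    have h1 : S * T ^ j ∈ CongruenceSubgroup.Gamma0 p := by
      have := (CongruenceSubgroup.Gamma0 p).mul_mem ((CongruenceSubgroup.Gamma0 p).inv_mem (Subgroup.mem_inf.mp hh).2) hγ
      rwa [inv_mul_cancel_left] at this
    rw [hmemΓ, entry_ST] at h1
    have := Int.le_of_dvd one_pos h1
    omega

end Fermat.Agent.S16.Theta
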