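import Fermat.Agent.S16.Theta.Abstract
import Fermat.Agent.S16.Theta.Gamma0Gen

/-! S16 / Part A: abstract invariance of the theta series of an isotropic subgroup (main). -/

set_option autoImplicit false

open Complex
open UpperHalfPlane hiding I
open scoped Real MatrixGroups ModularForm Manifold

namespace Fermat.Agent.S16.Theta

variable {D : Type} [AddCommGroup D] [Fintype D] [DecidableEq D] {μ : ℍ → ℂ}

namespace AbstractMain

variable (T : ThetaData D μ)

theorem psi_ne (a b : D) : T.ψ a b ≠ 0 := by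
  intro h
  have := T.χ_add a b
  rw [h, mul_zero] at this
  exact T.χ_ne _ this

theorem psi_zero_left (c : D) : T.ψ 0 c = 1 := by
  have h := T.ψ_add 0 0 c
  rw [add_zero] at h
  have h2 : T.ψ 0 c * 1 = T.ψ 0 c * T.ψ 0 c := by rw [mul_one]; exact h
  exact (mul_left_cancel₀ (psi_ne T 0 c) h2).symm

theorem psi_add_right (a b c : D) : T.ψ a (b + c) = T.ψ a b * T.ψ a c := by
  rw [T.ψ_symm, T.ψ_add, T.ψ_symm b, T.ψ_symm c]

theorem psi_nsmul (n : ℕ) (a c : D) : T.ψ (n • a) c = T.ψ a c ^ n := by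
  induction n with
  | zero => simp [psi_zero_left]
  | succ n ih => rw [succ_nsmul, T.ψ_add, ih, pow_succ]

theorem psi_nsmul_right (n : ℕ) (a c : D) : T.ψ a (n • c) = T.ψ a c ^ n := by
  rw [T.ψ_symm, psi_nsmul, T.ψ_symm]

theorem chi_zero : T.χ 0 = 1 := by
  have h := T.χ_add 0 0
  rw [add_zero, psi_zero_left, mul_one] at h
  have h2 : T.χ 0 * 1 = T.χ 0 * T.χ 0 := by rw [mul_one]; exact h
  exact (mul_left_cancel₀ (T.χ_ne 0) h2).symm

theorem chi_nsmul (n : ℕ) (c : D) : T.χ (n • c) = T.χ c ^ (n ^ 2) := by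
  induction n with
  | zero => simp [chi_zero]
  | succ n ih =>
    rw [succ_nsmul, T.χ_add, ih, psi_nsmul, T.ψ_self, ← pow_mul, ← pow_succ, ← pow_add]
    congr 1
    ring

theorem psi_neg_left (a c : D) : T.ψ (-a) c = (T.ψ a c)⁻¹ := by
  have h := T.ψ_add (-a) a c
  rw [neg_add_cancel, psi_zero_left] at h
  exact eq_inv_of_mul_eq_one_left h.symm

/-- `x ^ n` only depends on `n mod p` if `x ^ p = 1`. -/
theorem zpow_eq_of_modEq {x : ℂ} {p : ℕ} (hx0 : x ≠ 0) (hx : x ^ p = 1) {m n : ℤ}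
    (h : m ≡ n [ZMOD p]) : x ^ m = x ^ n := by
  obtain ⟨t, ht⟩ := (Int.modEq_iff_dvd.1 h)
  have : n = m + p * t := by linarith
  rw [this, zpow_add₀ hx0, zpow_mul, zpow_natCast, hx, one_zpow, mul_one]

section perp

variable (I : AddSubgroup D)

theorem add_mem_perp {b c : D} (hb : b ∈ T.perp I) (hc : c ∈ T.perp I) : b + c ∈ T.perp I := by
  intro a ha
  rw [psi_add_right, hb a ha, hc a ha, mul_one]

theorem nsmul_mem_perp (n : ℕ) {c : D} (hc : c ∈ T.perp I) : n • c ∈ T.perp I := by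
  intro a ha
  rw [psi_nsmul_right, hc a ha, one_pow]

theorem neg_mem_perp {c : D} (hc : c ∈ T.perp I) : -c ∈ T.perp I := by
  intro a ha
  rw [T.ψ_symm, psi_neg_left, T.ψ_symm, hc a ha, inv_one]

theorem mem_perp_of_mem (h1 : ∀ a ∈ I, T.χ a = 1) {a : D} (ha : a ∈ I) : a ∈ T.perp I := by
  intro a' ha'
  have := T.χ_add a' a
  rw [h1 _ (I.add_mem ha' ha), h1 _ ha', h1 _ ha, one_mul, one_mul] at this
  exact this.symm

theorem psi_pow_eq_one {p : ℕ} (h2 : ∀ b ∈ T.perp I, T.χ b ^ p = 1) {b c : D}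
    (hb : b ∈ T.perp I) (hc : c ∈ T.perp I) : T.ψ b c ^ p = 1 := by
  have := congrArg (· ^ p) (T.χ_add b c)
  simp only [mul_pow] at this
  rw [h2 _ (add_mem_perp T I hb hc), h2 _ hb, h2 _ hc, one_mul, one_mul] at this
  exact this.symm

open Classical in
/-- orthogonality on `I` -/
theorem sum_psi_I (b : D) :
    ∑ a ∈ Finset.univ.filter (· ∈ I), T.ψ a b =
      if b ∈ T.perp I then ((Finset.univ.filter (· ∈ I)).card : ℂ) else 0 := by
  split_ifs with hb
  · rw [Finset.sum_congr rfl (fun a ha => hb a (Finset.mem_filter.1 ha).2)]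
    simp
  · have hb' : ∃ a₀ ∈ I, T.ψ a₀ b ≠ 1 := by
      by_contra hcon
      push Not at hcon
      exact hb hcon
    obtain ⟨a₀, ha₀, hne⟩ := hb'
    have hshift : ∑ a ∈ Finset.univ.filter (· ∈ I), T.ψ a b =
        ∑ a ∈ Finset.univ.filter (· ∈ I), T.ψ (a₀ + a) b := by
      refine (Finset.sum_bij' (fun a _ => a₀ + a) (fun a _ => -a₀ + a) ?_ ?_ ?_ ?_ ?_).symm
      · intro a ha
        simp only [Finset.mem_filter, Finset.mem_univ, true_and] at ha ⊢
        exact I.add_mem ha₀ ha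
      · intro a ha
        simp only [Finset.mem_filter, Finset.mem_univ, true_and] at ha ⊢
        exact I.add_mem (I.neg_mem ha₀) ha
      · intro a _; simp
      · intro a _; simp
      · intro a _; rfl
    simp only [T.ψ_add, ← Finset.mul_sum] at hshift
    have : (1 - T.ψ a₀ b) * ∑ a ∈ Finset.univ.filter (· ∈ I), T.ψ a b = 0 := by
      rw [sub_mul, one_mul, ← hshift, sub_self]
    rcases mul_eq_zero.1 this with h | h
    · exact absurd (sub_eq_zero.1 h).symm hne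
    · exact h

open Classical in
/-- orthogonality on `perp I` -/
theorem sum_psi_perp (c : D) :
    ((Finset.univ.filter (· ∈ I)).card : ℂ) * ∑ b ∈ Finset.univ.filter (· ∈ T.perp I), T.ψ b c =
      if c ∈ I then (Fintype.card D : ℂ) else 0 := by
  have e1 : ((Finset.univ.filter (· ∈ I)).card : ℂ) *
      ∑ b ∈ Finset.univ.filter (· ∈ T.perp I), T.ψ b c =
      ∑ b, (∑ a ∈ Finset.univ.filter (· ∈ I), T.ψ a b) * T.ψ b c := by
    rw [Finset.mul_sum, Finset.sum_filter]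
    refine Finset.sum_congr rfl (fun b _ => ?_)
    rw [sum_psi_I]
    split_ifs <;> simp
  rw [e1]
  simp only [Finset.sum_mul]
  rw [Finset.sum_comm]
  have e2 : ∀ a, ∑ b, T.ψ a b * T.ψ b c = if a + c = 0 then (Fintype.card D : ℂ) else 0 := by
    intro a
    rw [← T.orth (a + c)]
    refine Finset.sum_congr rfl (fun b _ => ?_)
    rw [psi_add_right, T.ψ_symm a b]
  simp only [e2]
  rw [Finset.sum_ite, Finset.sum_const_zero, add_zero, Finset.sum_const, Finset.filter_filter]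
  split_ifs with hc
  · have : Finset.univ.filter (fun a => a ∈ I ∧ a + c = 0) = {-c} := by
      ext a
      simp only [Finset.mem_filter, Finset.mem_univ, true_and, Finset.mem_singleton]
      constructor
      · rintro ⟨_, h⟩; exact eq_neg_of_add_eq_zero_left h
      · rintro rfl; exact ⟨I.neg_mem hc, neg_add_cancel c⟩
    rw [this]; simp
  · have : Finset.univ.filter (fun a => a ∈ I ∧ a + c = 0) = ∅ := by
      ext a
      simp only [Finset.mem_filter, Finset.mem_univ, true_and, Finset.notMem_empty, iff_false,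
        not_and]
      intro ha h
      apply hc
      have : c = -a := eq_neg_of_add_eq_zero_right h
      rw [this]; exact I.neg_mem ha
    rw [this]; simp

open Classical in
/-- shifting the summation variable over `perp I`. -/
theorem sum_perp_shift {c : D} (hc : c ∈ T.perp I) (f : D → ℂ) :
    ∑ b ∈ Finset.univ.filter (· ∈ T.perp I), f (b + c) =
      ∑ b ∈ Finset.univ.filter (· ∈ T.perp I), f b := by
  refine Finset.sum_bij' (fun b _ => b + c) (fun b _ => b + -c) ?_ ?_ ?_ ?_ ?_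
  · intro b hb
    simp only [Finset.mem_filter, Finset.mem_univ, true_and] at hb ⊢
    exact add_mem_perp T I hb hc
  · intro b hb
    simp only [Finset.mem_filter, Finset.mem_univ, true_and] at hb ⊢
    exact add_mem_perp T I hb (neg_mem_perp T I hc)
  · intro b _; simp
  · intro b _; simp
  · intro b _; rfl

open Classical in
/-- the twisted Gauss sum vanishes off `perp I`. -/
theorem gauss_twist_zero (h1 : ∀ a ∈ I, T.χ a = 1) (w : ℤ) {c : D} (hc : c ∉ T.perp I) :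
    ∑ b ∈ Finset.univ.filter (· ∈ T.perp I), T.χ b ^ w * T.ψ b c = 0 := by
  have hc' : ∃ a₀ ∈ I, T.ψ a₀ c ≠ 1 := by
    by_contra hcon
    push Not at hcon
    exact hc hcon
  obtain ⟨a₀, ha₀, hne⟩ := hc'
  have hs := sum_perp_shift T I (mem_perp_of_mem T I h1 ha₀) (fun b => T.χ b ^ w * T.ψ b c)
  have hterm : ∀ b ∈ Finset.univ.filter (· ∈ T.perp I),
      T.χ (b + a₀) ^ w * T.ψ (b + a₀) c = T.ψ a₀ c * (T.χ b ^ w * T.ψ b c) := by
    intro b hb
    have hb' : b ∈ T.perp I := (Finset.mem_filter.1 hb).2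
    rw [T.χ_add, h1 _ ha₀, T.ψ_symm b a₀, hb' a₀ ha₀, mul_one, mul_one, T.ψ_add]
    ring
  simp only [] at hs
  rw [Finset.sum_congr rfl hterm, ← Finset.mul_sum] at hs
  have : (1 - T.ψ a₀ c) * ∑ b ∈ Finset.univ.filter (· ∈ T.perp I), T.χ b ^ w * T.ψ b c = 0 := by
    rw [sub_mul, one_mul, hs, sub_self]
  rcases mul_eq_zero.1 this with h | h
  · exact absurd (sub_eq_zero.1 h).symm hne
  · exact h

open Classical in
/-- completing the square. -/
theorem gauss_twist {p : ℕ} (hp : 0 < p) (h2 : ∀ b ∈ T.perp I, T.χ b ^ p = 1) (w k : ℤ)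
    (hwk : w * k ≡ 1 [ZMOD p]) {c : D} (hc : c ∈ T.perp I) :
    ∑ b ∈ Finset.univ.filter (· ∈ T.perp I), T.χ b ^ w * T.ψ b c =
      T.χ c ^ (-k) * ∑ b ∈ Finset.univ.filter (· ∈ T.perp I), T.χ b ^ w := by
  -- natural representative of `k`
  obtain ⟨k₀, hk₀⟩ : ∃ k₀ : ℕ, (k₀ : ℤ) ≡ k [ZMOD p] := by
    refine ⟨(k % p).toNat, ?_⟩
    rw [Int.toNat_of_nonneg (Int.emod_nonneg _ (by exact_mod_cast hp.ne'))]
    exact Int.mod_modEq _ _
  have hs := sum_perp_shift T I (nsmul_mem_perp T I k₀ hc) (fun b => T.χ b ^ w)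
  simp only [] at hs
  have hterm : ∀ b ∈ Finset.univ.filter (· ∈ T.perp I),
      T.χ (b + k₀ • c) ^ w = T.χ c ^ k * (T.χ b ^ w * T.ψ b c) := by
    intro b hb
    have hb' : b ∈ T.perp I := (Finset.mem_filter.1 hb).2
    rw [T.χ_add, chi_nsmul, psi_nsmul_right, mul_zpow, mul_zpow, ← zpow_natCast, ← zpow_mul,
      ← zpow_natCast (T.ψ b c), ← zpow_mul]
    have e1 : T.χ c ^ (((k₀ ^ 2 : ℕ) : ℤ) * w) = T.χ c ^ k := by
      refine zpow_eq_of_modEq (T.χ_ne c) (h2 c hc) ?_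
      have h3 : (k₀ : ℤ) * w ≡ 1 [ZMOD p] := by
        calc (k₀ : ℤ) * w ≡ k * w [ZMOD p] := hk₀.mul_right w
          _ = w * k := mul_comm _ _
          _ ≡ 1 [ZMOD p] := hwk
      calc ((k₀ ^ 2 : ℕ) : ℤ) * w = (k₀ : ℤ) * ((k₀ : ℤ) * w) := by push_cast; ring
        _ ≡ (k₀ : ℤ) * 1 [ZMOD p] := h3.mul_left _
        _ = k₀ := mul_one _
        _ ≡ k [ZMOD p] := hk₀
    have e2 : T.ψ b c ^ ((k₀ : ℤ) * w) = T.ψ b c := by
      have h3 : (k₀ : ℤ) * w ≡ 1 [ZMOD p] := by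
        calc (k₀ : ℤ) * w ≡ k * w [ZMOD p] := hk₀.mul_right w
          _ = w * k := mul_comm _ _
          _ ≡ 1 [ZMOD p] := hwk
      rw [zpow_eq_of_modEq (psi_ne T b c) (psi_pow_eq_one T I h2 hb' hc) h3, zpow_one]
    rw [e1, e2]
    ring
  rw [Finset.sum_congr rfl hterm, ← Finset.mul_sum] at hs
  rw [← hs, ← mul_assoc, ← zpow_add₀ (T.χ_ne c)]
  simp

end perp

section slash

variable (I : AddSubgroup D)

theorem slash_T_inv (a : D) :
    T.Θ a ∣[(2 : ℤ)] (ModularGroup.T)⁻¹ = (T.χ a)⁻¹ • T.Θ a := by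
  have h := congrArg (fun f => ((T.χ a)⁻¹ • f) ∣[(2 : ℤ)] (ModularGroup.T)⁻¹) (T.slash_T a)
  simp only [ModularForm.SL_smul_slash, ← SlashAction.slash_mul, mul_inv_cancel,
    SlashAction.slash_one, smul_smul, inv_mul_cancel₀ (T.χ_ne a), one_smul] at h
  exact h.symm

theorem slash_T_zpow (a : D) (n : ℤ) :
    T.Θ a ∣[(2 : ℤ)] (ModularGroup.T ^ n) = T.χ a ^ n • T.Θ a := by
  induction n using Int.induction_on with
  | zero => simp
  | succ n ih =>
    rw [zpow_add_one, SlashAction.slash_mul, ih, ModularForm.SL_smul_slash, T.slash_T, smul_smul,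
      zpow_add_one₀ (T.χ_ne a)]
  | pred n ih =>
    rw [zpow_sub_one, SlashAction.slash_mul, ih, ModularForm.SL_smul_slash, slash_T_inv, smul_smul,
      zpow_sub_one₀ (T.χ_ne a)]

open Classical in
/-- `∑_{b ∈ perp I} χ(b)^w Θ_b` -/
noncomputable def eta (w : ℤ) : ℍ → ℂ :=
  ∑ b ∈ Finset.univ.filter (· ∈ T.perp I), T.χ b ^ w • T.Θ b

theorem eta_slash_T (w n : ℤ) :
    eta T I w ∣[(2 : ℤ)] (ModularGroup.T ^ n) = eta T I (w + n) := by
  unfold eta
  rw [SlashAction.sum_slash]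
  refine Finset.sum_congr rfl (fun b _ => ?_)
  rw [ModularForm.SL_smul_slash, slash_T_zpow, smul_smul, zpow_add₀ (T.χ_ne b)]

open Classical in
theorem eta_slash_S (hμ : ∀ z : ℍ, μ z = -(z : ℂ) ^ 2) (w : ℤ) :
    eta T I w ∣[(2 : ℤ)] ModularGroup.S =
      (-T.κ) • ∑ c, (∑ b ∈ Finset.univ.filter (· ∈ T.perp I), T.χ b ^ w * T.ψ b c) • T.Θ c := by
  unfold eta
  rw [SlashAction.sum_slash]
  simp only [ModularForm.SL_smul_slash, T.slash_S hμ, Finset.smul_sum, smul_smul, Finset.sum_smul]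
  rw [Finset.sum_comm]
  refine Finset.sum_congr rfl (fun c _ => Finset.sum_congr rfl (fun b _ => ?_))
  congr 1
  ring

open Classical in
theorem thetaI_slash_S (hμ : ∀ z : ℍ, μ z = -(z : ℂ) ^ 2) :
    T.thetaI I ∣[(2 : ℤ)] ModularGroup.S =
      ((-T.κ) * ((Finset.univ.filter (· ∈ I)).card : ℂ)) • eta T I 0 := by
  unfold ThetaData.thetaI eta
  rw [SlashAction.sum_slash]
  simp only [T.slash_S hμ, Finset.smul_sum, smul_smul]
  rw [Finset.sum_comm]
  simp only [← Finset.sum_smul, ← Finset.mul_sum, sum_psi_I]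
  rw [Finset.sum_filter]
  refine Finset.sum_congr rfl (fun b _ => ?_)
  split_ifs <;> simp

end slash

section main

variable (I : AddSubgroup D)

theorem slash_neg_one (f : ℍ → ℂ) : f ∣[(2 : ℤ)] (-1 : SL(2, ℤ)) = f := by
  ext z
  rw [ModularForm.SL_slash_apply]
  simp [UpperHalfPlane.denom]

theorem S_inv_eq : (ModularGroup.S)⁻¹ = ModularGroup.S * (-1 : SL(2, ℤ)) := by
  rw [inv_eq_iff_mul_eq_one]
  decide

theorem thetaI_slash_T (h1 : ∀ a ∈ I, T.χ a = 1) :
    T.thetaI I ∣[(2 : ℤ)] ModularGroup.T = T.thetaI I := by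
  classical
  unfold ThetaData.thetaI
  rw [SlashAction.sum_slash]
  refine Finset.sum_congr rfl (fun a ha => ?_)
  rw [T.slash_T, h1 a (Finset.mem_filter.1 ha).2, one_smul]

theorem eta_eq_of_dvd {p : ℕ} (h2 : ∀ b ∈ T.perp I, T.χ b ^ p = 1) (w : ℤ) (hw : (p : ℤ) ∣ w) :
    eta T I w = eta T I 0 := by
  classical
  unfold eta
  refine Finset.sum_congr rfl (fun b hb => ?_)
  rw [zpow_eq_of_modEq (T.χ_ne b) (h2 b (Finset.mem_filter.1 hb).2)
    ((Int.modEq_zero_iff_dvd).2 hw)]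

theorem thetaI_STS (hμ : ∀ z : ℍ, μ z = -(z : ℂ) ^ 2) {p : ℕ}
    (h2 : ∀ b ∈ T.perp I, T.χ b ^ p = 1) (w : ℤ) (hw : (p : ℤ) ∣ w) :
    ((T.thetaI I ∣[(2 : ℤ)] ModularGroup.S) ∣[(2 : ℤ)] (ModularGroup.T ^ w))
      ∣[(2 : ℤ)] ModularGroup.S = T.thetaI I := by
  classical
  rw [thetaI_slash_S T I hμ, ModularForm.SL_smul_slash, eta_slash_T, zero_add,
    eta_eq_of_dvd T I h2 w hw, ModularForm.SL_smul_slash, eta_slash_S T I hμ, smul_smul,
    Finset.smul_sum]
  simp only [zpow_zero, one_mul, smul_smul]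
  have key : ∀ c, -T.κ * ((Finset.univ.filter (· ∈ I)).card : ℂ) * -T.κ *
      ∑ b ∈ Finset.univ.filter (· ∈ T.perp I), T.ψ b c = if c ∈ I then 1 else 0 := by
    intro c
    have h := sum_psi_perp T I c
    have hk := T.κ_sq
    calc -T.κ * ((Finset.univ.filter (· ∈ I)).card : ℂ) * -T.κ *
        ∑ b ∈ Finset.univ.filter (· ∈ T.perp I), T.ψ b c
        = T.κ ^ 2 * (((Finset.univ.filter (· ∈ I)).card : ℂ) *
          ∑ b ∈ Finset.univ.filter (· ∈ T.perp I), T.ψ b c) := by ring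
      _ = if c ∈ I then 1 else 0 := by
        rw [h]
        split_ifs
        · exact hk
        · simp
  simp only [key]
  unfold ThetaData.thetaI
  rw [Finset.sum_filter]
  refine Finset.sum_congr rfl (fun c _ => ?_)
  split_ifs <;> simp

open Classical in
theorem thetaI_STST (hμ : ∀ z : ℍ, μ z = -(z : ℂ) ^ 2) {p : ℕ} (hp : 0 < p)
    (h1 : ∀ a ∈ I, T.χ a = 1) (h2 : ∀ b ∈ T.perp I, T.χ b ^ p = 1) (w k : ℤ)
    (hwk : w * k ≡ 1 [ZMOD p])
    (h4 : (-T.κ) * ∑ b ∈ Finset.univ.filter (· ∈ T.perp I), T.χ b ^ w = 1) :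
    (((T.thetaI I ∣[(2 : ℤ)] ModularGroup.S) ∣[(2 : ℤ)] (ModularGroup.T ^ w))
      ∣[(2 : ℤ)] ModularGroup.S) ∣[(2 : ℤ)] (ModularGroup.T ^ k) =
      T.thetaI I ∣[(2 : ℤ)] ModularGroup.S := by
  rw [thetaI_slash_S T I hμ, ModularForm.SL_smul_slash, eta_slash_T, zero_add,
    ModularForm.SL_smul_slash, ModularForm.SL_smul_slash]
  congr 1
  rw [eta_slash_S T I hμ]
  have key : ∑ c, (∑ b ∈ Finset.univ.filter (· ∈ T.perp I), T.χ b ^ w * T.ψ b c) • T.Θ c =
      (∑ b ∈ Finset.univ.filter (· ∈ T.perp I), T.χ b ^ w) • eta T I (-k) := by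
    unfold eta
    rw [Finset.smul_sum, Finset.sum_filter]
    refine Finset.sum_congr rfl (fun c _ => ?_)
    split_ifs with hc
    · rw [gauss_twist T I hp h2 w k hwk hc, smul_smul, mul_comm]
    · rw [gauss_twist_zero T I h1 w hc, zero_smul]
  rw [key, smul_smul, h4, one_smul, eta_slash_T, neg_add_cancel]

/-- the stabiliser of a function under the weight two slash action -/
def stab (f : ℍ → ℂ) : Subgroup SL(2, ℤ) where
  carrier := {γ | f ∣[(2 : ℤ)] γ = f}
  mul_mem' := by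
    intro a b ha hb
    simp only [Set.mem_ofPred_eq] at ha hb ⊢
    rw [SlashAction.slash_mul, ha, hb]
  one_mem' := by simp
  inv_mem' := by
    intro a ha
    simp only [Set.mem_ofPred_eq] at ha ⊢
    conv_lhs => rw [← ha]
    rw [← SlashAction.slash_mul, mul_inv_cancel, SlashAction.slash_one]

theorem mem_stab (f : ℍ → ℂ) (γ : SL(2, ℤ)) : γ ∈ stab f ↔ f ∣[(2 : ℤ)] γ = f := Iff.rfl

end main

end AbstractMain

open Classical in
/-- MAIN abstract theorem. -/
theorem ThetaData.thetaI_slash (T : ThetaData D μ) (hμ : ∀ z : ℍ, μ z = -(z : ℂ) ^ 2)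
    (I : AddSubgroup D) (p : ℕ) (hp : p.Prime)
    (h1 : ∀ a ∈ I, T.χ a = 1)
    (h2 : ∀ b ∈ T.perp I, T.χ b ^ p = 1)
    (h4 : ∀ j : ℤ, ¬ (p : ℤ) ∣ j → ∃ w : ℤ, w ≡ j [ZMOD p] ∧
      (-T.κ) * ∑ b ∈ Finset.univ.filter (· ∈ T.perp I), T.χ b ^ w = 1)
    (γ : SL(2, ℤ)) (hγ : γ ∈ CongruenceSubgroup.Gamma0 p) :
    T.thetaI I ∣[(2 : ℤ)] γ = T.thetaI I := by
  have hle : CongruenceSubgroup.Gamma0 p ≤ AbstractMain.stab (T.thetaI I) := by
    refine Gamma0_le_of_mem p hp.one_lt _ ?_ ?_ ?_ ?_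
    · exact AbstractMain.slash_neg_one _
    · exact AbstractMain.thetaI_slash_T T I h1
    · rw [AbstractMain.mem_stab, AbstractMain.S_inv_eq, ← mul_assoc, SlashAction.slash_mul,
        SlashAction.slash_mul, SlashAction.slash_mul,
        AbstractMain.thetaI_STS T I hμ h2 _ (dvd_refl _), AbstractMain.slash_neg_one]
    · intro j hj
      obtain ⟨w, hwj, hw⟩ := h4 j hj
      have hpw : ¬ (p : ℤ) ∣ w := by
        intro hd
        exact hj ((Int.modEq_zero_iff_dvd).1 (hwj.symm.trans ((Int.modEq_zero_iff_dvd).2 hd)))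
      have hcop : IsCoprime w (p : ℤ) :=
        ((Nat.prime_iff_prime_int.1 hp).coprime_iff_not_dvd.2 hpw).symm
      obtain ⟨u, v, huv⟩ := hcop
      have hwk : w * u ≡ 1 [ZMOD p] := by
        refine (Int.modEq_iff_dvd.2 ⟨v, ?_⟩)
        linear_combination -huv
      refine ⟨w, u, hwj, hwk, ?_⟩
      rw [AbstractMain.mem_stab, SlashAction.slash_mul, SlashAction.slash_mul,
        SlashAction.slash_mul, SlashAction.slash_mul,
        AbstractMain.thetaI_STST T I hμ hp.pos h1 h2 w u hwk hw, ← SlashAction.slash_mul,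
        mul_inv_cancel, SlashAction.slash_one]
  exact hle hγ

end Fermat.Agent.S16.Theta
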