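import Fermat.Agent.S16.Theta.ArithDefs

/-! S16 / Part A: existence of the auxiliary prime (Dirichlet + quadratic reciprocity). -/

set_option autoImplicit false

namespace Fermat.Agent.S16.Theta

namespace ArithAux

theorem exists_aux_core (p : ℕ) (hp : p.Prime) (hp2 : p ≠ 2) :
    ∃ q r : ℕ, q.Prime ∧ q % 4 = 3 ∧ q ≠ p ∧ q ∣ r ^ 2 + p ∧ ¬ IsSquare (-(q : ZMod p)) := by
  haveI := Fact.mk hp
  have hchar : ringChar (ZMod p) ≠ 2 := by rwa [ZMod.ringChar_zmod_n]
  obtain ⟨n, hn⟩ := FiniteField.exists_nonsquare hchar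
  have hn0 : n ≠ 0 := by
    rintro rfl
    exact hn (IsSquare.zero)
  have hodd : Odd p := hp.odd_of_ne_two hp2
  have hcop : Nat.Coprime 4 p := by
    have : Nat.Coprime 2 p := (Nat.coprime_primes Nat.prime_two hp).mpr (Ne.symm hp2)
    exact Nat.Coprime.pow_left 2 this
  obtain ⟨c, hc4, hcp⟩ := Nat.chineseRemainder hcop 3 (-n).val
  have hcp' : (c : ZMod p) = -n := by
    have := (ZMod.natCast_eq_natCast_iff _ _ _).mpr hcp
    rwa [ZMod.natCast_zmod_val] at this
  haveI : NeZero (4 * p) := ⟨by have := hp.pos; omega⟩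
  have hcu : IsUnit (c : ZMod (4 * p)) := by
    rw [ZMod.isUnit_iff_coprime]
    apply Nat.Coprime.mul_right
    · have h2 : Nat.Coprime c 2 := by
        rw [Nat.coprime_two_right, Nat.odd_iff]
        have : c % 4 = 3 := hc4
        omega
      exact Nat.Coprime.pow_right 2 h2
    · rw [Nat.coprime_comm, hp.coprime_iff_not_dvd, ← ZMod.natCast_eq_zero_iff, hcp']
      simpa using hn0
  obtain ⟨q, hqp, hq, hqc⟩ := Nat.forall_exists_prime_gt_and_eq_mod hcu p
  have hqc' : q ≡ c [MOD 4 * p] := (ZMod.natCast_eq_natCast_iff _ _ _).mp hqc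
  have hq4 : q % 4 = 3 := by
    have h1 : q ≡ c [MOD 4] := hqc'.of_mul_right p
    exact h1.trans hc4
  have hqn : (q : ZMod p) = -n := by
    have h1 : q ≡ c [MOD p] := hqc'.of_mul_left 4
    rw [(ZMod.natCast_eq_natCast_iff _ _ _).mpr h1, hcp']
  have hleg : ¬ IsSquare (-(q : ZMod p)) := by rw [hqn, neg_neg]; exact hn
  haveI := Fact.mk hq
  have hq2 : q ≠ 2 := by rintro rfl; omega
  -- quadratic reciprocity
  have h1 : legendreSym p (-(q : ℤ)) = -1 := by
    rw [legendreSym.eq_neg_one_iff]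
    push_cast
    exact hleg
  have h2 : legendreSym q (-(p : ℤ)) = 1 := by
    have e1 : legendreSym q (-(p : ℤ)) = legendreSym q (-1) * legendreSym q p := by
      rw [← legendreSym.mul]; congr 1; ring
    have e2 : legendreSym p (-(q : ℤ)) = legendreSym p (-1) * legendreSym p q := by
      rw [← legendreSym.mul]; congr 1; ring
    have e3 := legendreSym.quadratic_reciprocity' hp2 hq2
    have e4 : legendreSym q (-1) = -1 := by
      rw [legendreSym.at_neg_one hq2, ZMod.χ₄_nat_three_mod_four hq4]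
    have e5 : legendreSym p (-1) = (-1) ^ (p / 2) := by
      rw [legendreSym.at_neg_one hp2, ZMod.χ₄_eq_neg_one_pow (Nat.odd_iff.mp hodd)]
    have e6 : ((-1 : ℤ)) ^ (p / 2 * (q / 2)) = (-1) ^ (p / 2) := by
      have : Odd (q / 2) := by rw [Nat.odd_iff]; omega
      rw [mul_comm, pow_mul, this.neg_one_pow]
    rw [e1, e4, e3, e6, ← e5, ← e2, h1]; norm_num
  have hp0 : ((-(p : ℤ) : ℤ) : ZMod q) ≠ 0 := by
    push_cast
    rw [neg_ne_zero, Ne, ZMod.natCast_eq_zero_iff, Nat.prime_dvd_prime_iff_eq hq hp]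
    omega
  obtain ⟨s, hs⟩ := (legendreSym.eq_one_iff q hp0).mp h2
  refine ⟨q, s.val, hq, hq4, by omega, ?_, hleg⟩
  rw [← ZMod.natCast_eq_zero_iff]
  push_cast at hs ⊢
  rw [ZMod.natCast_zmod_val, sq, ← hs]; ring

end ArithAux

theorem exists_aux (p : ℕ) (hp : p.Prime) (hp2 : p ≠ 2) : ∃ q r : ℕ, Aux p q r := by
  obtain ⟨q, r, hq, hq4, hpq, hr, hleg⟩ := ArithAux.exists_aux_core p hp hp2
  exact ⟨q, r, ⟨hp, hp2, hq, hq4, hpq, hr, hleg⟩⟩

end Fermat.Agent.S16.Theta
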