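import Fermat.Agent.S16.Theta.Four

/-! S16 / Part A: the isotropic subgroup (Ibukiyama order), definitions. -/

set_option autoImplicit false

open Complex
open UpperHalfPlane hiding I
open scoped Real MatrixGroups ModularForm Manifold

namespace Fermat.Agent.S16.Theta

/-- `(1+β)/2` -/
def v1 (p q : ℕ) : D4 1 q p (p * q) := ((1, (q : ZMod (2 * q))), (0, 0))
/-- `α(1+β)/2` -/
def v2 (p q : ℕ) : D4 1 q p (p * q) :=
  ((0, 0), ((p : ZMod (2 * p)), ((p * q : ℕ) : ZMod (2 * (p * q)))))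
/-- `(r+α)β/q` -/
def v3 (p q r : ℕ) : D4 1 q p (p * q) :=
  ((0, ((2 * r : ℕ) : ZMod (2 * q))), (0, ((2 * p : ℕ) : ZMod (2 * (p * q)))))

/-- the isotropic subgroup `Λ / L₀` -/
def Iso (p q r : ℕ) : AddSubgroup (D4 1 q p (p * q)) :=
  AddSubgroup.closure {v1 p q, v2 p q, v3 p q r}

/-- explicit description of the orthogonal complement of `Iso` -/
def PerpCond (p q r : ℕ) (b : D4 1 q p (p * q)) : Prop :=
  2 ∣ b.1.1.val + b.1.2.val ∧ 2 ∣ b.2.1.val + b.2.2.val ∧ q ∣ r * b.1.2.val + b.2.2.val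

/-- the standing hypotheses on the auxiliary data -/
structure Aux (p q r : ℕ) : Prop where
  hp : p.Prime
  hp2 : p ≠ 2
  hq : q.Prime
  hq4 : q % 4 = 3
  hpq : q ≠ p
  hr : q ∣ r ^ 2 + p
  hleg : ¬ IsSquare (-(q : ZMod p))

end Fermat.Agent.S16.Theta
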