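import Fermat.Agent.S16.Theta.GaussBinary

/-! S16 / Part A: the Gauss sum over the orthogonal complement. -/

set_option autoImplicit false

open Complex
open UpperHalfPlane hiding I
open scoped Real MatrixGroups ModularForm Manifold

namespace Fermat.Agent.S16.Theta

namespace AG

/-- CRT fibre sum. -/
theorem sum_crt {M m n : ℕ} [NeZero m] [NeZero n] [NeZero M] (hM : M = m * n) (h : m.Coprime n)
    (c : ZMod m) (g : ZMod n → ℂ) :
    ∑ b : ZMod M, (if (ZMod.cast b : ZMod m) = c then g (ZMod.cast b : ZMod n) else 0) =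
      ∑ y, g y := by
  subst hM
  rw [Fintype.sum_equiv (ZMod.chineseRemainder h).toEquiv _
    (fun u : ZMod m × ZMod n => if u.1 = c then g u.2 else 0)]
  · rw [Fintype.sum_prod_type]
    simp
  · intro b
    simp [ZMod.chineseRemainder]

theorem sum_crt' {M m n : ℕ} [NeZero m] [NeZero n] [NeZero M] (hM : M = m * n) (h : m.Coprime n)
    (g : ZMod n → ℂ) :
    ∑ b : ZMod M, g (ZMod.cast b : ZMod n) = m * ∑ y, g y := by
  subst hM
  rw [Fintype.sum_equiv (ZMod.chineseRemainder h).toEquiv _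
    (fun u : ZMod m × ZMod n => g u.2)]
  · rw [Fintype.sum_prod_type]
    simp [ZMod.card]
  · intro b
    simp [ZMod.chineseRemainder]

/-- `e(c n² / p)` -/
noncomputable def ee (p : ℕ) (c : ℤ) (n : ℕ) : ℂ :=
  cexp (2 * π * I * ((c : ℂ) * (n : ℂ) ^ 2 / p))

theorem ee_congr {p : ℕ} [NeZero p] (c : ℤ) {n n' : ℕ} (h : n ≡ n' [MOD p]) :
    ee p c n = ee p c n' := by
  unfold ee
  rw [Complex.exp_eq_exp_iff_exists_int]
  have h1 : (n : ℤ) ≡ n' [ZMOD p] := (Int.natCast_modEq_iff).2 h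
  have h2 : (p : ℤ) ∣ (n : ℤ) ^ 2 - (n' : ℤ) ^ 2 := (Int.ModEq.pow 2 h1).symm.dvd
  obtain ⟨k, hk⟩ := h2
  refine ⟨c * k, ?_⟩
  have hp : (p : ℂ) ≠ 0 := Nat.cast_ne_zero.2 (NeZero.ne p)
  have hk' : ((n : ℂ)) ^ 2 = (n' : ℂ) ^ 2 + p * k := by
    have : ((n : ℤ) : ℂ) ^ 2 - ((n' : ℤ) : ℂ) ^ 2 = ((p : ℤ) : ℂ) * k := by exact_mod_cast hk
    push_cast at this
    linear_combination this
  rw [hk']
  push_cast
  field_simp

theorem ee_mod {p N : ℕ} [NeZero p] (hN : p ∣ N) (c : ℤ) (n : ℕ) :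
    ee p c (n % N) = ee p c n :=
  ee_congr c ((Nat.mod_modEq n N).of_dvd hN)

theorem val_cast {M n : ℕ} [NeZero M] [NeZero n] (b : ZMod M) :
    (ZMod.cast b : ZMod n).val = b.val % n := by
  rw [← ZMod.natCast_val, ZMod.val_natCast]

theorem two_dvd_iff {M : ℕ} [NeZero M] (b : ZMod M) (k : ℕ) :
    2 ∣ b.val + k ↔ (ZMod.cast b : ZMod 2) = ((k : ℕ) : ZMod 2) := by
  rw [← ZMod.natCast_val, ← (ZMod.natCast_eq_zero_iff (b.val + k) 2), Nat.cast_add,
    CharTwo.add_eq_zero]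

theorem dvd_iff {M q : ℕ} [NeZero M] (b : ZMod M) (k : ℕ) :
    q ∣ k + b.val ↔ (ZMod.cast b : ZMod q) = -((k : ℕ) : ZMod q) := by
  rw [← ZMod.natCast_val, ← (ZMod.natCast_eq_zero_iff (k + b.val) q), Nat.cast_add,
    eq_neg_iff_add_eq_zero, add_comm]

end AG

variable {p q r : ℕ} [NeZero p] [NeZero q]

/-- for `w = 4 q w'` the character `χ ^ w` only depends on `(b₂, b₃) mod p`. -/
theorem chi_zpow (h : Aux p q r) (w' : ℤ) (b : D4 1 q p (p * q)) :
    (data4 1 q p (p * q)).χ b ^ (4 * (q : ℤ) * w') =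
      cexp (2 * π * I * ((w' : ℂ) * ((q : ℂ) * (b.2.1.val : ℂ) ^ 2 + (b.2.2.val : ℂ) ^ 2) / p)) := by
  rw [data4_χ]
  unfold chi1
  rw [← Complex.exp_add, ← Complex.exp_add, ← Complex.exp_add, ← Complex.exp_int_mul,
    Complex.exp_eq_exp_iff_exists_int]
  refine ⟨q * w' * (b.1.1.val : ℤ) ^ 2 + w' * (b.1.2.val : ℤ) ^ 2, ?_⟩
  have hp : (p : ℂ) ≠ 0 := Nat.cast_ne_zero.2 (NeZero.ne p)
  have hq : (q : ℂ) ≠ 0 := Nat.cast_ne_zero.2 (NeZero.ne q)
  push_cast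
  field_simp
  ring

namespace AG

omit [NeZero p] [NeZero q] in
theorem ite_and3 (P1 P2 P3 : Prop) [Decidable (P1 ∧ P2 ∧ P3)] [Decidable P1] [Decidable P2]
    [Decidable P3] (x y : ℂ) :
    (if P1 ∧ P2 ∧ P3 then x * y else 0) =
      (if P1 then (1 : ℂ) else 0) * ((if P3 then y else 0) * (if P2 then x else 0)) := by
  by_cases h1 : P1 <;> by_cases h2 : P2 <;> by_cases h3 : P3 <;> simp [h1, h2, h3, mul_comm]

omit [NeZero p] [NeZero q] in
theorem exp_split (w' : ℤ) (m n : ℕ) :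
    cexp (2 * π * I * ((w' : ℂ) * ((q : ℂ) * (m : ℂ) ^ 2 + (n : ℂ) ^ 2) / p)) =
      ee p (w' * q) m * ee p w' n := by
  unfold ee
  rw [← Complex.exp_add]
  congr 1
  push_cast
  ring

theorem AB (h : Aux p q r) (w' : ℤ) (hw : ¬ (p : ℤ) ∣ w') :
    (∑ x : ZMod p, ee p (w' * q) x.val) * (∑ y : ZMod p, ee p w' y.val) = -(p : ℂ) := by
  rw [← gauss_binary h w' hw, Finset.sum_mul_sum]
  refine Finset.sum_congr rfl fun x _ => Finset.sum_congr rfl fun y _ => ?_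
  rw [exp_split]

end AG

open Classical in
theorem gauss_perp (h : Aux p q r) (w' : ℤ) (hw : ¬ (p : ℤ) ∣ w') :
    ∑ b ∈ Finset.univ.filter (fun b : D4 1 q p (p * q) => PerpCond p q r b),
      (data4 1 q p (p * q)).χ b ^ (4 * (q : ℤ) * w') = -(4 * p * q : ℂ) := by
  have hp2 : Nat.Coprime 2 p := by
    rw [Nat.coprime_comm]
    exact (Nat.coprime_primes h.hp Nat.prime_two).2 h.hp2
  have hq2 : q ≠ 2 := by
    intro h2
    have := h.hq4
    rw [h2] at this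
    omega
  have hqp : Nat.Coprime q p := (Nat.coprime_primes h.hq h.hp).2 h.hpq
  have hq2p : Nat.Coprime q (2 * p) :=
    Nat.Coprime.mul_right ((Nat.coprime_primes h.hq Nat.prime_two).2 hq2) hqp
  set A : ℂ := ∑ x : ZMod p, AG.ee p (w' * q) x.val with hA
  set B : ℂ := ∑ y : ZMod p, AG.ee p w' y.val with hB
  have hAB : A * B = -(p : ℂ) := AG.AB h w' hw
  -- the three elementary sums
  have s0 : ∀ b1 : ZMod (2 * q), ∑ b0 : ZMod (2 * 1),
      (if (ZMod.cast b0 : ZMod 2) = ((b1.val : ℕ) : ZMod 2) then (1 : ℂ) else 0) = 1 := by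
    intro b1
    have := AG.sum_crt (M := 2 * 1) (m := 2) (n := 1) rfl (by norm_num)
      ((b1.val : ℕ) : ZMod 2) (fun _ => (1 : ℂ))
    simp
  have s2 : ∀ b3 : ZMod (2 * (p * q)), ∑ b2 : ZMod (2 * p),
      (if (ZMod.cast b2 : ZMod 2) = ((b3.val : ℕ) : ZMod 2) then
        AG.ee p (w' * q) (ZMod.cast b2 : ZMod p).val else 0) = A := by
    intro b3
    exact AG.sum_crt (M := 2 * p) (m := 2) (n := p) rfl hp2
      ((b3.val : ℕ) : ZMod 2) (fun x => AG.ee p (w' * q) x.val)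
  have s3' : ∑ y : ZMod (2 * p), AG.ee p w' y.val = 2 * B := by
    have := AG.sum_crt' (M := 2 * p) (m := 2) (n := p) rfl hp2 (fun x => AG.ee p w' x.val)
    rw [← hB] at this
    rw [← Nat.cast_ofNat (R := ℂ), ← this]
    refine Finset.sum_congr rfl fun y _ => ?_
    rw [AG.val_cast, AG.ee_mod dvd_rfl]
  have s3 : ∀ b1 : ZMod (2 * q), ∑ b3 : ZMod (2 * (p * q)),
      (if (ZMod.cast b3 : ZMod q) = -((r * b1.val : ℕ) : ZMod q) then
        AG.ee p w' (ZMod.cast b3 : ZMod (2 * p)).val else 0) = 2 * B := by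
    intro b1
    rw [← s3']
    exact AG.sum_crt (M := 2 * (p * q)) (m := q) (n := 2 * p) (by ring) hq2p
      (-((r * b1.val : ℕ) : ZMod q)) (fun x => AG.ee p w' x.val)
  -- rewrite the summand
  have key : ∀ b : D4 1 q p (p * q),
      (if PerpCond p q r b then (data4 1 q p (p * q)).χ b ^ (4 * (q : ℤ) * w') else 0) =
      (if (ZMod.cast b.1.1 : ZMod 2) = ((b.1.2.val : ℕ) : ZMod 2) then (1 : ℂ) else 0) *
      ((if (ZMod.cast b.2.2 : ZMod q) = -((r * b.1.2.val : ℕ) : ZMod q) then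
        AG.ee p w' (ZMod.cast b.2.2 : ZMod (2 * p)).val else 0) *
       (if (ZMod.cast b.2.1 : ZMod 2) = ((b.2.2.val : ℕ) : ZMod 2) then
        AG.ee p (w' * q) (ZMod.cast b.2.1 : ZMod p).val else 0)) := by
    intro b
    rw [chi_zpow h, AG.exp_split]
    unfold PerpCond
    rw [AG.two_dvd_iff, AG.two_dvd_iff, AG.dvd_iff, AG.val_cast, AG.val_cast,
      AG.ee_mod dvd_rfl, AG.ee_mod (Dvd.intro_left 2 rfl)]
    convert AG.ite_and3 _ _ _ _ _ using 1
  rw [Finset.sum_filter, Finset.sum_congr rfl (fun b _ => key b), Fintype.sum_prod_type,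
    Fintype.sum_prod_type]
  have inner : ∀ (b0 : ZMod (2 * 1)) (b1 : ZMod (2 * q)),
      ∑ y : ZMod (2 * p) × ZMod (2 * (p * q)),
      (if (ZMod.cast b0 : ZMod 2) = ((b1.val : ℕ) : ZMod 2) then (1 : ℂ) else 0) *
      ((if (ZMod.cast y.2 : ZMod q) = -((r * b1.val : ℕ) : ZMod q) then
        AG.ee p w' (ZMod.cast y.2 : ZMod (2 * p)).val else 0) *
       (if (ZMod.cast y.1 : ZMod 2) = ((y.2.val : ℕ) : ZMod 2) then
        AG.ee p (w' * q) (ZMod.cast y.1 : ZMod p).val else 0)) =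
      (if (ZMod.cast b0 : ZMod 2) = ((b1.val : ℕ) : ZMod 2) then (1 : ℂ) else 0) *
        (2 * B * A) := by
    intro b0 b1
    rw [← Finset.mul_sum, Fintype.sum_prod_type_right]
    congr 1
    simp only []
    rw [Finset.sum_congr rfl (fun b3 _ => by rw [← Finset.mul_sum, s2 b3]), ← Finset.sum_mul,
      s3 b1]
  simp only [inner]
  rw [Finset.sum_comm]
  simp only [← Finset.sum_mul, s0]
  simp only [Finset.sum_const, Finset.card_univ, ZMod.card, nsmul_eq_mul]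
  push_cast
  linear_combination (4 * (q : ℂ)) * hAB

theorem kappa_eq (h : Aux p q r) : (data4 1 q p (p * q)).κ = 1 / (4 * p * q : ℂ) := by
  rw [data4_κ]
  have hp : (0 : ℝ) ≤ p := Nat.cast_nonneg p
  have hq : (0 : ℝ) ≤ q := Nat.cast_nonneg q
  have h1 : Real.sqrt (2 * ((1 : ℕ) : ℝ)) * Real.sqrt (2 * (q : ℝ)) *
      (Real.sqrt (2 * (p : ℝ)) * Real.sqrt (2 * ((p * q : ℕ) : ℝ))) = 4 * p * q := by
    rw [← Real.sqrt_mul (by positivity), ← Real.sqrt_mul (by positivity),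
      ← Real.sqrt_mul (by positivity)]
    rw [show (2 * ((1 : ℕ) : ℝ) * (2 * (q : ℝ)) * (2 * (p : ℝ) * (2 * ((p * q : ℕ) : ℝ)))) =
      (4 * p * q) ^ 2 by push_cast; ring]
    exact Real.sqrt_sq (by positivity)
  have h2 : ((Real.sqrt (2 * ((1 : ℕ) : ℝ)) : ℂ)) * (Real.sqrt (2 * (q : ℝ)) : ℂ) *
      ((Real.sqrt (2 * (p : ℝ)) : ℂ) * (Real.sqrt (2 * ((p * q : ℕ) : ℝ)) : ℂ)) = 4 * p * q := by
    exact_mod_cast h1
  rw [← h2]
  simp only [one_div, mul_inv]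

end Fermat.Agent.S16.Theta
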