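import Fermat.Agent.S16.Theta.ArithDefs
import Fermat.Agent.S16.Theta.AbstractMain

/-! S16 / Part A: `Iso` is isotropic, its orthogonal complement, level `p`. -/

set_option autoImplicit false

open Complex
open UpperHalfPlane hiding I
open scoped Real MatrixGroups ModularForm Manifold

namespace Fermat.Agent.S16.Theta

variable {p q r : ℕ} [NeZero p] [NeZero q]

namespace ArithIso

/-- `e(A/N) = 1 ↔ N ∣ A`. -/
theorem exp_eq_one_iff_dvd (A : ℤ) (N : ℕ) (hN : N ≠ 0) :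
    cexp (2 * π * I * ((A : ℂ) / (N : ℂ))) = 1 ↔ (N : ℤ) ∣ A := by
  have hN' : (N : ℂ) ≠ 0 := Nat.cast_ne_zero.2 hN
  have hpi : (2 * π * I : ℂ) ≠ 0 := Complex.two_pi_I_ne_zero
  rw [Complex.exp_eq_one_iff]
  constructor
  · rintro ⟨n, hn⟩
    refine ⟨n, ?_⟩
    have h1 : (A : ℂ) / (N : ℂ) = n := by
      apply mul_left_cancel₀ hpi
      rw [hn]; ring
    have h2 : (A : ℂ) = (N : ℂ) * n := by
      rw [div_eq_iff hN'] at h1
      rw [h1]; ring
    exact_mod_cast h2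
  · rintro ⟨n, rfl⟩
    refine ⟨n, ?_⟩
    push_cast
    field_simp

/-- integer vectors as elements of the discriminant group -/
def castD (p q : ℕ) (m0 m1 m2 m3 : ℤ) : D4 1 q p (p * q) :=
  (((m0 : ZMod (2 * 1)), (m1 : ZMod (2 * q))), ((m2 : ZMod (2 * p)), (m3 : ZMod (2 * (p * q)))))

theorem chi_castD (m0 m1 m2 m3 : ℤ) :
    (data4 1 q p (p * q)).χ (castD p q m0 m1 m2 m3) =
      cexp (2 * π * I * (((p * q * m0 ^ 2 + p * m1 ^ 2 + q * m2 ^ 2 + m3 ^ 2 : ℤ) : ℂ) /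
        ((4 * p * q : ℕ) : ℂ))) := by
  have hp : (p : ℂ) ≠ 0 := Nat.cast_ne_zero.2 (NeZero.ne p)
  have hq : (q : ℂ) ≠ 0 := Nat.cast_ne_zero.2 (NeZero.ne q)
  rw [data4_χ]
  simp only [castD, chi1_intCast, ← Complex.exp_add]
  congr 1
  push_cast
  field_simp
  ring

theorem psi_castD (m0 m1 m2 m3 n0 n1 n2 n3 : ℤ) :
    (data4 1 q p (p * q)).ψ (castD p q m0 m1 m2 m3) (castD p q n0 n1 n2 n3) =
      cexp (2 * π * I * (((p * q * (m0 * n0) + p * (m1 * n1) + q * (m2 * n2) + m3 * n3 : ℤ) : ℂ) /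
        ((2 * p * q : ℕ) : ℂ))) := by
  have hp : (p : ℂ) ≠ 0 := Nat.cast_ne_zero.2 (NeZero.ne p)
  have hq : (q : ℂ) ≠ 0 := Nat.cast_ne_zero.2 (NeZero.ne q)
  rw [data4_ψ]
  simp only [castD, psi1_intCast, ← Complex.exp_add]
  congr 1
  push_cast
  field_simp
  ring

theorem v1_eq : v1 p q = castD p q 1 q 0 0 := by
  simp [v1, castD]

theorem v2_eq : v2 p q = castD p q 0 0 p (p * q) := by
  simp [v2, castD]

theorem v3_eq : v3 p q r = castD p q 0 (2 * r) 0 (2 * p) := by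
  simp [v3, castD]

theorem eq_castD (b : D4 1 q p (p * q)) :
    b = castD p q b.1.1.val b.1.2.val b.2.1.val b.2.2.val := by
  simp [castD]

end ArithIso

/-- general principle: `ψ = 1` on the closure of a set on which `ψ = 1`. -/
theorem ThetaData.psi_eq_one_of_mem_closure {D : Type} [AddCommGroup D] [Fintype D]
    [DecidableEq D] {μ : ℍ → ℂ} (T : ThetaData D μ) (s : Set D) (b : D)
    (hψ : ∀ a ∈ s, T.ψ a b = 1) : ∀ a ∈ AddSubgroup.closure s, T.ψ a b = 1 := by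
  intro a ha
  induction ha using AddSubgroup.closure_induction with
  | mem x hx => exact hψ x hx
  | zero => exact AbstractMain.psi_zero_left T b
  | add x y _ _ hx hy => rw [T.ψ_add, hx, hy, mul_one]
  | neg x _ hx => rw [AbstractMain.psi_neg_left, hx, inv_one]

/-- general principle: `χ = 1` on the closure of a set on which `χ = 1` and `ψ = 1`. -/
theorem ThetaData.chi_eq_one_of_mem_closure {D : Type} [AddCommGroup D] [Fintype D]
    [DecidableEq D] {μ : ℍ → ℂ} (T : ThetaData D μ) (s : Set D) (hχ : ∀ a ∈ s, T.χ a = 1)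
    (hψ : ∀ a ∈ s, ∀ b ∈ s, T.ψ a b = 1) : ∀ a ∈ AddSubgroup.closure s, T.χ a = 1 := by
  have h2 : ∀ a ∈ AddSubgroup.closure s, ∀ b ∈ AddSubgroup.closure s, T.ψ a b = 1 := by
    intro a ha b hb
    refine T.psi_eq_one_of_mem_closure s b (fun a' ha' => ?_) a ha
    rw [T.ψ_symm]
    exact T.psi_eq_one_of_mem_closure s a' (fun b' hb' => by rw [T.ψ_symm]; exact hψ a' ha' b' hb')
      b hb
  intro a ha
  induction ha using AddSubgroup.closure_induction with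
  | mem x hx => exact hχ x hx
  | zero => exact AbstractMain.chi_zero T
  | add x y hx' hy' hx hy => rw [T.χ_add, hx, hy, h2 x hx' y hy', mul_one, mul_one]
  | neg x hx' hx =>
    have h := T.χ_add x (-x)
    rw [add_neg_cancel, AbstractMain.chi_zero, hx, one_mul,
      h2 x hx' (-x) ((AddSubgroup.closure s).neg_mem hx'), mul_one] at h
    exact h.symm

/-- general principle: the orthogonal complement of a closure. -/
theorem ThetaData.mem_perp_closure_iff {D : Type} [AddCommGroup D] [Fintype D]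
    [DecidableEq D] {μ : ℍ → ℂ} (T : ThetaData D μ) (s : Set D) (b : D) :
    b ∈ T.perp (AddSubgroup.closure s) ↔ ∀ a ∈ s, T.ψ a b = 1 :=
  ⟨fun h a ha => h a (AddSubgroup.subset_closure ha),
    fun h a ha => T.psi_eq_one_of_mem_closure s b h a ha⟩

theorem chi_eq_one_of_mem_Iso (h : Aux p q r) :
    ∀ a ∈ Iso p q r, (data4 1 q p (p * q)).χ a = 1 := by
  have hN4 : 4 * p * q ≠ 0 := by
    have := NeZero.ne p; have := NeZero.ne q; positivity
  have hN2 : 2 * p * q ≠ 0 := by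
    have := NeZero.ne p; have := NeZero.ne q; positivity
  obtain ⟨t, ht⟩ : ∃ t : ℤ, (q : ℤ) = 4 * t + 3 := by
    refine ⟨(q / 4 : ℕ), ?_⟩
    have := Nat.div_add_mod q 4
    rw [h.hq4] at this
    exact_mod_cast this.symm
  obtain ⟨s, hs⟩ : ∃ s : ℤ, (r : ℤ) ^ 2 + p = q * s := by
    obtain ⟨s, hs⟩ := h.hr
    exact ⟨s, by exact_mod_cast hs⟩
  have c1 : (data4 1 q p (p * q)).χ (v1 p q) = 1 := by
    rw [ArithIso.v1_eq, ArithIso.chi_castD, ArithIso.exp_eq_one_iff_dvd _ _ hN4]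
    refine ⟨t + 1, ?_⟩
    push_cast
    rw [ht]; ring
  have c2 : (data4 1 q p (p * q)).χ (v2 p q) = 1 := by
    rw [ArithIso.v2_eq, ArithIso.chi_castD, ArithIso.exp_eq_one_iff_dvd _ _ hN4]
    refine ⟨p * (t + 1), ?_⟩
    push_cast
    rw [ht]; ring
  have c3 : (data4 1 q p (p * q)).χ (v3 p q r) = 1 := by
    rw [ArithIso.v3_eq, ArithIso.chi_castD, ArithIso.exp_eq_one_iff_dvd _ _ hN4]
    refine ⟨s, ?_⟩
    push_cast
    linear_combination (4 * (p : ℤ)) * hs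
  have p12 : (data4 1 q p (p * q)).ψ (v1 p q) (v2 p q) = 1 := by
    rw [ArithIso.v1_eq, ArithIso.v2_eq, ArithIso.psi_castD, ArithIso.exp_eq_one_iff_dvd _ _ hN2]
    exact ⟨0, by ring⟩
  have p13 : (data4 1 q p (p * q)).ψ (v1 p q) (v3 p q r) = 1 := by
    rw [ArithIso.v1_eq, ArithIso.v3_eq, ArithIso.psi_castD, ArithIso.exp_eq_one_iff_dvd _ _ hN2]
    exact ⟨r, by push_cast; ring⟩
  have p23 : (data4 1 q p (p * q)).ψ (v2 p q) (v3 p q r) = 1 := by
    rw [ArithIso.v2_eq, ArithIso.v3_eq, ArithIso.psi_castD, ArithIso.exp_eq_one_iff_dvd _ _ hN2]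
    exact ⟨p, by push_cast; ring⟩
  refine (data4 1 q p (p * q)).chi_eq_one_of_mem_closure _ ?_ ?_
  · rintro a (rfl | rfl | rfl)
    · exact c1
    · exact c2
    · exact c3
  · rintro a (rfl | rfl | rfl) b (rfl | rfl | rfl)
    · rw [(data4 1 q p (p * q)).ψ_self, c1, one_pow]
    · exact p12
    · exact p13
    · rw [(data4 1 q p (p * q)).ψ_symm]; exact p12
    · rw [(data4 1 q p (p * q)).ψ_self, c2, one_pow]
    · exact p23
    · rw [(data4 1 q p (p * q)).ψ_symm]; exact p13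
    · rw [(data4 1 q p (p * q)).ψ_symm]; exact p23
    · rw [(data4 1 q p (p * q)).ψ_self, c3, one_pow]

theorem mem_perp_Iso_iff (_h : Aux p q r) (b : D4 1 q p (p * q)) :
    b ∈ (data4 1 q p (p * q)).perp (Iso p q r) ↔ PerpCond p q r b := by
  have hN2 : 2 * p * q ≠ 0 := by
    have := NeZero.ne p; have := NeZero.ne q; positivity
  have hp0 : (p : ℤ) ≠ 0 := by exact_mod_cast NeZero.ne p
  have hq0 : (q : ℤ) ≠ 0 := by exact_mod_cast NeZero.ne q
  unfold Iso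
  rw [ThetaData.mem_perp_closure_iff]
  have e1 : (data4 1 q p (p * q)).ψ (v1 p q) b = 1 ↔ 2 ∣ b.1.1.val + b.1.2.val := by
    conv_lhs => rw [ArithIso.eq_castD b, ArithIso.v1_eq, ArithIso.psi_castD,
      ArithIso.exp_eq_one_iff_dvd _ _ hN2]
    have : ((p : ℤ) * q * (1 * (b.1.1.val : ℤ)) + p * (q * (b.1.2.val : ℤ)) +
        q * (0 * (b.2.1.val : ℤ)) + 0 * (b.2.2.val : ℤ)) =
        (p * q) * ((b.1.1.val + b.1.2.val : ℕ) : ℤ) := by push_cast; ring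
    rw [this]
    have h2 : ((2 * p * q : ℕ) : ℤ) = (p * q) * 2 := by push_cast; ring
    rw [h2, mul_dvd_mul_iff_left (mul_ne_zero hp0 hq0)]
    exact_mod_cast Iff.rfl
  have e2 : (data4 1 q p (p * q)).ψ (v2 p q) b = 1 ↔ 2 ∣ b.2.1.val + b.2.2.val := by
    conv_lhs => rw [ArithIso.eq_castD b, ArithIso.v2_eq, ArithIso.psi_castD,
      ArithIso.exp_eq_one_iff_dvd _ _ hN2]
    have : ((p : ℤ) * q * (0 * (b.1.1.val : ℤ)) + p * (0 * (b.1.2.val : ℤ)) +
        q * (p * (b.2.1.val : ℤ)) + (p * q) * (b.2.2.val : ℤ)) =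
        (p * q) * ((b.2.1.val + b.2.2.val : ℕ) : ℤ) := by push_cast; ring
    rw [this]
    have h2 : ((2 * p * q : ℕ) : ℤ) = (p * q) * 2 := by push_cast; ring
    rw [h2, mul_dvd_mul_iff_left (mul_ne_zero hp0 hq0)]
    exact_mod_cast Iff.rfl
  have e3 : (data4 1 q p (p * q)).ψ (v3 p q r) b = 1 ↔ q ∣ r * b.1.2.val + b.2.2.val := by
    conv_lhs => rw [ArithIso.eq_castD b, ArithIso.v3_eq, ArithIso.psi_castD,
      ArithIso.exp_eq_one_iff_dvd _ _ hN2]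
    have : ((p : ℤ) * q * (0 * (b.1.1.val : ℤ)) + p * (2 * r * (b.1.2.val : ℤ)) +
        q * (0 * (b.2.1.val : ℤ)) + (2 * p) * (b.2.2.val : ℤ)) =
        (2 * p) * ((r * b.1.2.val + b.2.2.val : ℕ) : ℤ) := by push_cast; ring
    rw [this]
    have h2 : ((2 * p * q : ℕ) : ℤ) = (2 * p) * q := by push_cast; ring
    rw [h2, mul_dvd_mul_iff_left (mul_ne_zero two_ne_zero hp0)]
    exact_mod_cast Iff.rfl
  unfold PerpCond
  rw [← e1, ← e2, ← e3]
  constructor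
  · intro hb
    exact ⟨hb _ (by simp), hb _ (by simp), hb _ (by simp)⟩
  · rintro ⟨h1, h2, h3⟩ a (rfl | rfl | rfl)
    · exact h1
    · exact h2
    · exact h3

theorem chi_pow_eq_one_of_perpCond (h : Aux p q r) (b : D4 1 q p (p * q))
    (hb : PerpCond p q r b) : (data4 1 q p (p * q)).χ b ^ p = 1 := by
  have hN4 : 4 * p * q ≠ 0 := by
    have := NeZero.ne p; have := NeZero.ne q; positivity
  obtain ⟨t, ht⟩ : ∃ t : ℤ, (q : ℤ) = 4 * t + 3 := by
    refine ⟨(q / 4 : ℕ), ?_⟩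
    have := Nat.div_add_mod q 4
    rw [h.hq4] at this
    exact_mod_cast this.symm
  obtain ⟨s, hs⟩ : ∃ s : ℤ, (r : ℤ) ^ 2 + p = q * s := by
    obtain ⟨s, hs⟩ := h.hr
    exact ⟨s, by exact_mod_cast hs⟩
  obtain ⟨⟨x, hx⟩, ⟨y, hy⟩, ⟨u, hu⟩⟩ := hb
  set b0 : ℤ := (b.1.1.val : ℤ) with hb0
  set b1 : ℤ := (b.1.2.val : ℤ) with hb1
  set b2 : ℤ := (b.2.1.val : ℤ) with hb2
  set b3 : ℤ := (b.2.2.val : ℤ) with hb3
  have hx' : b0 = 2 * x - b1 := by
    have : b0 + b1 = 2 * x := by rw [hb0, hb1]; exact_mod_cast hx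
    linarith
  have hy' : b2 = 2 * y - b3 := by
    have : b2 + b3 = 2 * y := by rw [hb2, hb3]; exact_mod_cast hy
    linarith
  have hu' : b3 = q * u - r * b1 := by
    have : r * b1 + b3 = q * u := by rw [hb1, hb3]; exact_mod_cast hu
    linarith
  have h4 : (4 : ℤ) ∣ p * q * b0 ^ 2 + p * b1 ^ 2 + q * b2 ^ 2 + b3 ^ 2 := by
    refine ⟨p * q * (x ^ 2 - x * b1) + q * (y ^ 2 - y * b3) + (t + 1) * (p * b1 ^ 2 + b3 ^ 2), ?_⟩
    rw [hx', hy', ht]
    ring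
  have hq : (q : ℤ) ∣ p * q * b0 ^ 2 + p * b1 ^ 2 + q * b2 ^ 2 + b3 ^ 2 := by
    refine ⟨p * b0 ^ 2 + b2 ^ 2 + s * b1 ^ 2 + (q * u ^ 2 - 2 * u * r * b1), ?_⟩
    have e : b3 ^ 2 = (q * u - r * b1) ^ 2 := by rw [← hu']
    rw [e]
    linear_combination b1 ^ 2 * hs
  have hcop : IsCoprime (4 : ℤ) (q : ℤ) := ⟨t + 1, -1, by rw [ht]; ring⟩
  obtain ⟨A, hA⟩ := hcop.mul_dvd h4 hq
  rw [ArithIso.eq_castD b, ArithIso.chi_castD, ← Complex.exp_nat_mul]
  have e : (p : ℂ) * (2 * π * I * (((p * q * (b.1.1.val : ℤ) ^ 2 + p * (b.1.2.val : ℤ) ^ 2 +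
      q * (b.2.1.val : ℤ) ^ 2 + (b.2.2.val : ℤ) ^ 2 : ℤ) : ℂ) / ((4 * p * q : ℕ) : ℂ))) =
      2 * π * I * (((p * (p * q * b0 ^ 2 + p * b1 ^ 2 + q * b2 ^ 2 + b3 ^ 2) : ℤ) : ℂ) /
        ((4 * p * q : ℕ) : ℂ)) := by
    simp only [hb0, hb1, hb2, hb3]
    push_cast
    ring
  rw [e, ArithIso.exp_eq_one_iff_dvd _ _ hN4, hA]
  exact ⟨A, by push_cast; ring⟩

end Fermat.Agent.S16.Theta
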