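import Mathlib
import Fermat.Prelude.Def_FLTPrelim_Modularity

/-! S16 / Part A (theta series): shared definitions. -/

set_option autoImplicit false

open Complex
open UpperHalfPlane hiding I
open scoped Real MatrixGroups ModularForm Manifold

namespace Fermat.Agent.S16.Theta

/-- Vector valued theta data on a finite abelian group `D`, with automorphy factor `μ` for
`z ↦ -1/z`.  `χ = e(Q)`, `ψ = e(B)`. -/
structure ThetaData (D : Type) [AddCommGroup D] [Fintype D] [DecidableEq D] (μ : ℍ → ℂ) where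
  Θ : D → ℍ → ℂ
  χ : D → ℂ
  ψ : D → D → ℂ
  κ : ℂ
  χ_ne : ∀ a, χ a ≠ 0
  ψ_add : ∀ a b c, ψ (a + b) c = ψ a c * ψ b c
  ψ_symm : ∀ a b, ψ a b = ψ b a
  χ_add : ∀ a b, χ (a + b) = χ a * χ b * ψ a b
  ψ_self : ∀ a, ψ a a = χ a ^ 2
  orth : ∀ u, ∑ b, ψ b u = if u = 0 then (Fintype.card D : ℂ) else 0
  κ_sq : κ ^ 2 * (Fintype.card D : ℂ) = 1
  T_law : ∀ a (z : ℍ), Θ a ((1 : ℝ) +ᵥ z) = χ a * Θ a z
  S_law : ∀ a (z : ℍ), Θ a (ModularGroup.S • z) = μ z * κ * ∑ b, ψ a b * Θ b z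
  hol : ∀ a, MDiff (Θ a)
  bdd : ∀ a, IsBoundedAtImInfty (Θ a)

/-- The one-dimensional theta series with characteristic `a mod 2d`:
`∑_{m ≡ a (2d)} e(m² z / (4d))`. -/
noncomputable def th (d : ℕ) (a : ZMod (2 * d)) (z : ℂ) : ℂ :=
  ∑' m : ℤ, if (m : ZMod (2 * d)) = a then cexp (2 * π * I * ((m : ℂ) ^ 2 / (4 * d)) * z) else 0

/-- `e(a² / (4d))` for `a mod 2d`. -/
noncomputable def chi1 (d : ℕ) (a : ZMod (2 * d)) : ℂ :=
  cexp (2 * π * I * (((a.val : ℂ)) ^ 2 / (4 * d)))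

/-- `e(ab / (2d))` for `a, b mod 2d`. -/
noncomputable def psi1 (d : ℕ) (a b : ZMod (2 * d)) : ℂ :=
  cexp (2 * π * I * (((a.val : ℂ)) * (b.val : ℂ) / (2 * d)))

/-- the square root automorphy factor -/
noncomputable def mu1 (z : ℍ) : ℂ := (-I * (z : ℂ)) ^ (1 / 2 : ℂ)

/-- the orthogonal complement of a subgroup -/
def ThetaData.perp {D : Type} [AddCommGroup D] [Fintype D] [DecidableEq D] {μ : ℍ → ℂ}
    (T : ThetaData D μ) (I : AddSubgroup D) : Set D := {b | ∀ a ∈ I, T.ψ a b = 1}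

open Classical in
/-- the theta series of the overlattice attached to a subgroup `I` -/
noncomputable def ThetaData.thetaI {D : Type} [AddCommGroup D] [Fintype D] [DecidableEq D]
    {μ : ℍ → ℂ} (T : ThetaData D μ) (I : AddSubgroup D) : ℍ → ℂ :=
  ∑ a ∈ Finset.univ.filter (· ∈ I), T.Θ a

end Fermat.Agent.S16.Theta
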