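import Fermat.Agent.S16.Theta.Four

/-! S16 / Part A: q-expansion of the theta series of an isotropic subgroup. -/

set_option autoImplicit false

open Complex
open UpperHalfPlane hiding I
open scoped Real MatrixGroups ModularForm Manifold

namespace Fermat.Agent.S16.Theta

namespace QExp

/-- the index lattice `ℤ⁴` -/
abbrev M4 : Type := (ℤ × ℤ) × (ℤ × ℤ)

/-- one exponential term -/
noncomputable def E (d : ℕ) (k : ℤ) (z : ℂ) : ℂ := cexp (2 * π * I * ((k : ℂ) ^ 2 / (4 * d)) * z)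

/-- the class of a lattice vector in the discriminant group -/
def cls (d0 d1 d2 d3 : ℕ) (m : M4) : D4 d0 d1 d2 d3 :=
  (((m.1.1 : ZMod (2 * d0)), (m.1.2 : ZMod (2 * d1))),
    ((m.2.1 : ZMod (2 * d2)), (m.2.2 : ZMod (2 * d3))))

/-- the quadratic form -/
def Nq (d0 d1 d2 d3 : ℕ) (m : M4) : ℚ :=
  ((m.1.1 : ℚ) ^ 2 / (4 * d0) + (m.1.2 : ℚ) ^ 2 / (4 * d1)) +
    ((m.2.1 : ℚ) ^ 2 / (4 * d2) + (m.2.2 : ℚ) ^ 2 / (4 * d3))

/-- the four-fold product term -/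
noncomputable def term (d0 d1 d2 d3 : ℕ) (z : ℂ) (m : M4) : ℂ :=
  (E d0 m.1.1 z * E d1 m.1.2 z) * (E d2 m.2.1 z * E d3 m.2.2 z)

variable (d0 d1 d2 d3 : ℕ)

theorem term_eq (z : ℂ) (m : M4) :
    term d0 d1 d2 d3 z m = cexp (2 * π * I * (Nq d0 d1 d2 d3 m : ℂ) * z) := by
  unfold term E Nq
  rw [← Complex.exp_add, ← Complex.exp_add, ← Complex.exp_add]
  congr 1
  push_cast
  ring

theorem cls_zero : cls d0 d1 d2 d3 0 = 0 := by
  simp [cls]

theorem cls_neg (m : M4) : cls d0 d1 d2 d3 (-m) = - cls d0 d1 d2 d3 m := by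
  simp [cls]

theorem Nq_neg (m : M4) : Nq d0 d1 d2 d3 (-m) = Nq d0 d1 d2 d3 m := by
  simp [Nq]

theorem Nq_nonneg (m : M4) : 0 ≤ Nq d0 d1 d2 d3 m := by
  unfold Nq
  positivity

variable [NeZero d0] [NeZero d1] [NeZero d2] [NeZero d3]

theorem chi_cls (m : M4) :
    (data4 d0 d1 d2 d3).χ (cls d0 d1 d2 d3 m) = cexp (2 * π * I * (Nq d0 d1 d2 d3 m : ℂ)) := by
  rw [data4_χ]
  simp only [cls]
  rw [chi1_intCast, chi1_intCast, chi1_intCast, chi1_intCast,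
    ← Complex.exp_add, ← Complex.exp_add, ← Complex.exp_add]
  congr 1
  unfold Nq
  push_cast
  ring

theorem exists_nat_of_chi (m : M4) (h : (data4 d0 d1 d2 d3).χ (cls d0 d1 d2 d3 m) = 1) :
    ∃ n : ℕ, Nq d0 d1 d2 d3 m = n := by
  rw [chi_cls, Complex.exp_eq_one_iff] at h
  obtain ⟨n, hn⟩ := h
  have h2 : (2 * π * I : ℂ) ≠ 0 := Complex.two_pi_I_ne_zero
  have h3 : (Nq d0 d1 d2 d3 m : ℂ) = (n : ℂ) := by
    have : (2 * π * I : ℂ) * (Nq d0 d1 d2 d3 m : ℂ) = (2 * π * I) * (n : ℂ) := by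
      rw [hn]; ring
    exact mul_left_cancel₀ h2 this
  have h4 : Nq d0 d1 d2 d3 m = (n : ℚ) := by
    have : ((Nq d0 d1 d2 d3 m : ℚ) : ℂ) = (((n : ℚ)) : ℂ) := by rw [h3]; simp
    exact_mod_cast this
  have h5 : 0 ≤ n := by
    have := Nq_nonneg d0 d1 d2 d3 m
    rw [h4] at this
    exact_mod_cast this
  refine ⟨n.toNat, ?_⟩
  rw [h4]
  have : ((n.toNat : ℤ) : ℚ) = (n : ℚ) := by rw [Int.toNat_of_nonneg h5]
  exact_mod_cast this.symm

/-- each coordinate is bounded by the value of the form -/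
theorem sq_le (m : M4) :
    (m.1.1 : ℚ) ^ 2 ≤ 4 * d0 * Nq d0 d1 d2 d3 m ∧ (m.1.2 : ℚ) ^ 2 ≤ 4 * d1 * Nq d0 d1 d2 d3 m ∧
    (m.2.1 : ℚ) ^ 2 ≤ 4 * d2 * Nq d0 d1 d2 d3 m ∧ (m.2.2 : ℚ) ^ 2 ≤ 4 * d3 * Nq d0 d1 d2 d3 m := by
  have h0 : (0 : ℚ) < 4 * d0 := by have := NeZero.pos d0; positivity
  have h1 : (0 : ℚ) < 4 * d1 := by have := NeZero.pos d1; positivity
  have h2 : (0 : ℚ) < 4 * d2 := by have := NeZero.pos d2; positivity
  have h3 : (0 : ℚ) < 4 * d3 := by have := NeZero.pos d3; positivity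
  have e0 : (0 : ℚ) ≤ (m.1.1 : ℚ) ^ 2 / (4 * d0) := by positivity
  have e1 : (0 : ℚ) ≤ (m.1.2 : ℚ) ^ 2 / (4 * d1) := by positivity
  have e2 : (0 : ℚ) ≤ (m.2.1 : ℚ) ^ 2 / (4 * d2) := by positivity
  have e3 : (0 : ℚ) ≤ (m.2.2 : ℚ) ^ 2 / (4 * d3) := by positivity
  refine ⟨?_, ?_, ?_, ?_⟩
  · have : (m.1.1 : ℚ) ^ 2 / (4 * d0) ≤ Nq d0 d1 d2 d3 m := by unfold Nq; linarith
    rw [div_le_iff₀ h0] at this; linarith
  · have : (m.1.2 : ℚ) ^ 2 / (4 * d1) ≤ Nq d0 d1 d2 d3 m := by unfold Nq; linarith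
    rw [div_le_iff₀ h1] at this; linarith
  · have : (m.2.1 : ℚ) ^ 2 / (4 * d2) ≤ Nq d0 d1 d2 d3 m := by unfold Nq; linarith
    rw [div_le_iff₀ h2] at this; linarith
  · have : (m.2.2 : ℚ) ^ 2 / (4 * d3) ≤ Nq d0 d1 d2 d3 m := by unfold Nq; linarith
    rw [div_le_iff₀ h3] at this; linarith

theorem eq_zero_of_Nq_eq_zero (m : M4) (h : Nq d0 d1 d2 d3 m = 0) : m = 0 := by
  obtain ⟨h0, h1, h2, h3⟩ := sq_le d0 d1 d2 d3 m
  rw [h, mul_zero] at h0 h1 h2 h3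
  have f : ∀ k : ℤ, (k : ℚ) ^ 2 ≤ 0 → k = 0 := by
    intro k hk
    have : (k : ℚ) ^ 2 = 0 := le_antisymm hk (by positivity)
    have : (k : ℚ) = 0 := by simpa using this
    exact_mod_cast this
  ext <;> simp [f _ h0, f _ h1, f _ h2, f _ h3]

theorem abs_le_of_sq_le (k : ℤ) (B : ℕ) (h : (k : ℚ) ^ 2 ≤ B) : k ∈ Finset.Icc (-(B : ℤ)) B := by
  have h' : k ^ 2 ≤ (B : ℤ) := by exact_mod_cast h
  rw [Finset.mem_Icc]
  constructor <;> nlinarith [sq_nonneg (k - 1), sq_nonneg (k + 1), sq_nonneg k]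

theorem finite_fibre (n : ℕ) : {m : M4 | Nq d0 d1 d2 d3 m = n}.Finite := by
  refine Set.Finite.subset
    (((Finset.Icc (-((4 * d0 * n : ℕ) : ℤ)) (4 * d0 * n : ℕ) ×ˢ
        Finset.Icc (-((4 * d1 * n : ℕ) : ℤ)) (4 * d1 * n : ℕ)) ×ˢ
      (Finset.Icc (-((4 * d2 * n : ℕ) : ℤ)) (4 * d2 * n : ℕ) ×ˢ
        Finset.Icc (-((4 * d3 * n : ℕ) : ℤ)) (4 * d3 * n : ℕ))).finite_toSet) ?_
  intro m hm
  have hm' : Nq d0 d1 d2 d3 m = n := hm
  obtain ⟨h0, h1, h2, h3⟩ := sq_le d0 d1 d2 d3 m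
  rw [hm'] at h0 h1 h2 h3
  simp only [Finset.coe_product, Set.mem_prod, Finset.mem_coe]
  refine ⟨⟨abs_le_of_sq_le _ _ ?_, abs_le_of_sq_le _ _ ?_⟩,
    ⟨abs_le_of_sq_le _ _ ?_, abs_le_of_sq_le _ _ ?_⟩⟩
  · push_cast; exact h0
  · push_cast; exact h1
  · push_cast; exact h2
  · push_cast; exact h3

/-- the one-dimensional summand with characteristic -/
noncomputable def fI (d : ℕ) (a : ZMod (2 * d)) (z : ℂ) (m : ℤ) : ℂ :=
  if (m : ZMod (2 * d)) = a then E d m z else 0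

theorem hasSum_fI (d : ℕ) [NeZero d] (a : ZMod (2 * d)) (z : ℍ) :
    HasSum (fI d a z) (th d a z) := hasSum_th d a z

theorem summable_norm_fI (d : ℕ) [NeZero d] (a : ZMod (2 * d)) (z : ℍ) :
    Summable (fun m => ‖fI d a z m‖) := by
  refine Summable.of_nonneg_of_le (fun _ => norm_nonneg _) (fun m => ?_)
    (summable_norm_th_term d z)
  unfold fI E
  split_ifs
  · exact le_rfl
  · simp

omit [NeZero d0] [NeZero d1] [NeZero d2] [NeZero d3] in
theorem fI_prod (a : D4 d0 d1 d2 d3) (z : ℂ) (x : M4) :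
    (fI d0 a.1.1 z x.1.1 * fI d1 a.1.2 z x.1.2) * (fI d2 a.2.1 z x.2.1 * fI d3 a.2.2 z x.2.2) =
      if cls d0 d1 d2 d3 x = a then term d0 d1 d2 d3 z x else 0 := by
  obtain ⟨⟨a0, a1⟩, ⟨a2, a3⟩⟩ := a
  simp only [fI, cls, term, Prod.mk.injEq]
  split_ifs <;> simp_all

theorem hasSum_mul_gen {ι κ : Type} (f : ι → ℂ) (g : κ → ℂ) (s t : ℂ) (hf : HasSum f s)
    (hg : HasSum g t) (nf : Summable (fun x => ‖f x‖)) (ng : Summable (fun x => ‖g x‖)) :
    HasSum (fun x : ι × κ => f x.1 * g x.2) (s * t) ∧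
      Summable (fun x : ι × κ => ‖f x.1 * g x.2‖) :=
  ⟨hf.mul hg (summable_mul_of_summable_norm nf ng), nf.mul_norm ng⟩

theorem hasSum_four (a0 : ZMod (2 * d0)) (a1 : ZMod (2 * d1)) (a2 : ZMod (2 * d2))
    (a3 : ZMod (2 * d3)) (z : ℍ) :
    HasSum (fun x : M4 => (fI d0 a0 z x.1.1 * fI d1 a1 z x.1.2) *
      (fI d2 a2 z x.2.1 * fI d3 a3 z x.2.2))
      ((th d0 a0 z * th d1 a1 z) * (th d2 a2 z * th d3 a3 z)) := by
  have h01 := hasSum_mul_gen _ _ _ _ (hasSum_fI d0 a0 z) (hasSum_fI d1 a1 z)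
    (summable_norm_fI d0 a0 z) (summable_norm_fI d1 a1 z)
  have h23 := hasSum_mul_gen _ _ _ _ (hasSum_fI d2 a2 z) (hasSum_fI d3 a3 z)
    (summable_norm_fI d2 a2 z) (summable_norm_fI d3 a3 z)
  exact (hasSum_mul_gen _ _ _ _ h01.1 h23.1 h01.2 h23.2).1

theorem hasSum_Θ (a : D4 d0 d1 d2 d3) (z : ℍ) :
    HasSum (fun x : M4 => if cls d0 d1 d2 d3 x = a then term d0 d1 d2 d3 z x else 0)
      ((data4 d0 d1 d2 d3).Θ a z) := by
  have h := hasSum_four d0 d1 d2 d3 a.1.1 a.1.2 a.2.1 a.2.2 z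
  have e : (fun x : M4 => (fI d0 a.1.1 z x.1.1 * fI d1 a.1.2 z x.1.2) *
      (fI d2 a.2.1 z x.2.1 * fI d3 a.2.2 z x.2.2)) =
      (fun x : M4 => if cls d0 d1 d2 d3 x = a then term d0 d1 d2 d3 z x else 0) :=
    funext (fun x => fI_prod d0 d1 d2 d3 a z x)
  rw [e] at h
  rw [data4_Θ]
  exact h

open Classical in
theorem hasSum_thetaI (I : AddSubgroup (D4 d0 d1 d2 d3)) (z : ℍ) :
    HasSum (fun x : M4 => if cls d0 d1 d2 d3 x ∈ I then term d0 d1 d2 d3 z x else 0)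
      ((data4 d0 d1 d2 d3).thetaI I z) := by
  have h := hasSum_sum (s := Finset.univ.filter (· ∈ I))
    (fun a _ => hasSum_Θ d0 d1 d2 d3 a z)
  have e : (fun x : M4 => ∑ a ∈ Finset.univ.filter (· ∈ I),
      if cls d0 d1 d2 d3 x = a then term d0 d1 d2 d3 z x else 0) =
      (fun x : M4 => if cls d0 d1 d2 d3 x ∈ I then term d0 d1 d2 d3 z x else 0) := by
    funext x
    rw [Finset.sum_ite_eq]
    simp
  rw [e] at h
  unfold ThetaData.thetaI
  rw [Finset.sum_apply]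
  exact h

theorem regroup {S : Type} (nn : S → ℕ) (q s : ℂ) (hfin : ∀ n, Finite {x : S // nn x = n})
    (h : HasSum (fun x : S => q ^ nn x) s) :
    HasSum (fun n : ℕ => (Nat.card {x : S // nn x = n} : ℂ) • q ^ n) s := by
  have h1 : HasSum ((fun x : S => q ^ nn x) ∘ (Equiv.sigmaFiberEquiv nn)) s :=
    (Equiv.sigmaFiberEquiv nn).hasSum_iff.mpr h
  refine HasSum.sigma h1 (fun n => ?_)
  have := Fintype.ofFinite {x : S // nn x = n}
  have h2 := hasSum_fintype (fun c : {x : S // nn x = n} =>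
    ((fun x : S => q ^ nn x) ∘ (Equiv.sigmaFiberEquiv nn)) ⟨n, c⟩)
  convert h2 using 1
  have : ∀ c : {x : S // nn x = n},
      ((fun x : S => q ^ nn x) ∘ (Equiv.sigmaFiberEquiv nn)) ⟨n, c⟩ = q ^ n := by
    intro c
    simp [Equiv.sigmaFiberEquiv, c.2]
  simp only [this]
  simp [Nat.card_eq_fintype_card]

theorem even_card_of_neg {S : Type} [Finite S] (σ : S → S) (h1 : ∀ x, σ (σ x) = x)
    (h2 : ∀ x, σ x ≠ x) : Even (Nat.card S) := by
  have := Fintype.ofFinite S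
  rw [Nat.card_eq_fintype_card, ← ZMod.natCast_eq_zero_iff_even, Fintype.card_eq_sum_ones]
  push_cast
  refine Finset.sum_involution (fun x _ => σ x) ?_ ?_ ?_ ?_
  · intro x _
    decide
  · intro x _ _
    exact h2 x
  · intro x _
    exact Finset.mem_univ _
  · intro x _
    exact h1 x

end QExp

open QExp

variable (d0 d1 d2 d3 : ℕ) [NeZero d0] [NeZero d1] [NeZero d2] [NeZero d3]

/-- `thetaI I = 1 + 2 * (power series in q with natural number coefficients)`. -/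
theorem exists_qexp (I : AddSubgroup (D4 d0 d1 d2 d3))
    (h1 : ∀ a ∈ I, (data4 d0 d1 d2 d3).χ a = 1) :
    ∃ c : ℕ → ℕ, c 0 = 1 ∧ (∀ n, 1 ≤ n → Even (c n)) ∧
      ∀ z : ℍ, HasSum (fun n => (c n : ℂ) • Function.Periodic.qParam 1 (z : ℂ) ^ n)
        ((data4 d0 d1 d2 d3).thetaI I z) := by
  classical
  -- the overlattice
  let S : Type := {m : M4 // cls d0 d1 d2 d3 m ∈ I}
  have hex : ∀ m : S, ∃ n : ℕ, Nq d0 d1 d2 d3 m.1 = n :=
    fun m => exists_nat_of_chi d0 d1 d2 d3 m.1 (h1 _ m.2)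
  choose nn hnn using hex
  have hfin : ∀ n, Finite {x : S // nn x = n} := by
    intro n
    have := (finite_fibre d0 d1 d2 d3 n).to_subtype
    refine Finite.of_injective
      (fun x : {x : S // nn x = n} => (⟨x.1.1, by
        show Nq d0 d1 d2 d3 x.1.1 = n
        rw [hnn x.1, x.2]⟩ : {m : M4 | Nq d0 d1 d2 d3 m = n})) ?_
    intro x y hxy
    have : x.1.1 = y.1.1 := congrArg (fun w : {m : M4 | Nq d0 d1 d2 d3 m = n} => w.1) hxy
    exact Subtype.ext (Subtype.ext this)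
  refine ⟨fun n => Nat.card {x : S // nn x = n}, ?_, ?_, ?_⟩
  · -- constant term
    show Nat.card {x : S // nn x = 0} = 1
    rw [Nat.card_eq_one_iff_unique]
    have hz : cls d0 d1 d2 d3 0 ∈ I := by rw [cls_zero]; exact I.zero_mem
    have key : ∀ x : S, nn x = 0 → x.1 = 0 := by
      intro x hx
      apply eq_zero_of_Nq_eq_zero d0 d1 d2 d3
      rw [hnn x, hx]; simp
    refine ⟨⟨fun x y => Subtype.ext (Subtype.ext ((key x.1 x.2).trans (key y.1 y.2).symm))⟩,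
      ⟨⟨⟨0, hz⟩, ?_⟩⟩⟩
    have := hnn ⟨0, hz⟩
    have h0 : Nq d0 d1 d2 d3 0 = 0 := by simp [Nq]
    have h2 : ((nn ⟨0, hz⟩ : ℕ) : ℚ) = 0 := by rw [← this]; exact h0
    exact_mod_cast h2
  · intro n hn
    show Even (Nat.card {x : S // nn x = n})
    have hneg : ∀ x : S, cls d0 d1 d2 d3 (-x.1) ∈ I := by
      intro x
      rw [cls_neg]
      exact I.neg_mem x.2
    have hnnneg : ∀ x : S, nn ⟨-x.1, hneg x⟩ = nn x := by
      intro x
      have a := hnn ⟨-x.1, hneg x⟩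
      have b := hnn x
      have c : ((nn ⟨-x.1, hneg x⟩ : ℕ) : ℚ) = (nn x : ℚ) := by
        rw [← a, ← b]
        exact Nq_neg d0 d1 d2 d3 x.1
      exact_mod_cast c
    have := hfin n
    refine even_card_of_neg
      (fun x : {x : S // nn x = n} => ⟨⟨-x.1.1, hneg x.1⟩, (hnnneg x.1).trans x.2⟩) ?_ ?_
    · intro x
      exact Subtype.ext (Subtype.ext (neg_neg _))
    · intro x hx
      have h3 : -x.1.1 = x.1.1 := congrArg (fun y : {x : S // nn x = n} => y.1.1) hx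
      have h4 : x.1.1 = 0 := by
        have : ∀ k : ℤ, -k = k → k = 0 := fun k hk => by omega
        have e1 := congrArg (fun m : M4 => m.1.1) h3
        have e2 := congrArg (fun m : M4 => m.1.2) h3
        have e3 := congrArg (fun m : M4 => m.2.1) h3
        have e4 := congrArg (fun m : M4 => m.2.2) h3
        simp only [Prod.fst_neg, Prod.snd_neg] at e1 e2 e3 e4
        ext
        · exact this _ e1
        · exact this _ e2
        · exact this _ e3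
        · exact this _ e4
      have h5 := hnn x.1
      rw [h4, x.2] at h5
      have h0 : Nq d0 d1 d2 d3 0 = 0 := by simp [Nq]
      rw [h0] at h5
      have : n = 0 := by exact_mod_cast h5.symm
      omega
  · intro z
    refine regroup nn (Function.Periodic.qParam 1 (z : ℂ)) _ hfin ?_
    have h := hasSum_thetaI d0 d1 d2 d3 I z
    have hsupp : Function.support
        (fun x : M4 => if cls d0 d1 d2 d3 x ∈ I then term d0 d1 d2 d3 z x else 0) ⊆
        {m : M4 | cls d0 d1 d2 d3 m ∈ I} := by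
      intro x hx
      by_contra hc
      apply hx
      have hc' : cls d0 d1 d2 d3 x ∉ I := hc
      simp [hc']
    have h' : HasSum ((fun x : M4 => if cls d0 d1 d2 d3 x ∈ I then term d0 d1 d2 d3 z x else 0) ∘
        (Subtype.val : S → M4)) ((data4 d0 d1 d2 d3).thetaI I z) :=
      (hasSum_subtype_iff_of_support_subset hsupp).mpr h
    have e : ((fun x : M4 => if cls d0 d1 d2 d3 x ∈ I then term d0 d1 d2 d3 z x else 0) ∘
        (Subtype.val : S → M4)) = fun x : S => Function.Periodic.qParam 1 (z : ℂ) ^ nn x := by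
      funext x
      have hx : cls d0 d1 d2 d3 x.1 ∈ I := x.2
      simp only [Function.comp]
      rw [if_pos hx, term_eq, hnn x, Function.Periodic.qParam, ← Complex.exp_nat_mul]
      congr 1
      push_cast
      simp
      ring
    rw [e] at h'
    exact h'

end Fermat.Agent.S16.Theta
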