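import Fermat.Agent.S16.Theta.AbstractMain
import Fermat.Agent.S16.Theta.QExp
import Fermat.Agent.S16.Theta.ArithAux
import Fermat.Agent.S16.Theta.ArithIso
import Fermat.Agent.S16.Theta.ArithGauss
import Fermat.Prelude.Thm_CongruenceSubgroup_one_mem_strictPeriods_Gamma0

/-! S16 / Part A: final assembly: a weight 2 form on `Gamma0 p` with `a₀ = 1/2`, `aₙ ∈ ℤ`. -/

set_option autoImplicit false

open Complex
open UpperHalfPlane hiding I
open scoped Real MatrixGroups ModularForm Manifold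

namespace Fermat.Agent.S16.Theta

/-- build a weight two modular form on `Gamma0 N`. -/
theorem exists_modularForm (N : ℕ) [NeZero N] (f : ℍ → ℂ)
    (hinv : ∀ γ ∈ CongruenceSubgroup.Gamma0 N, f ∣[(2 : ℤ)] γ = f) (hol : MDiff f)
    (hbdd : ∀ γ : SL(2, ℤ), IsBoundedAtImInfty (f ∣[(2 : ℤ)] γ)) :
    ∃ F : ModularForm (CongruenceSubgroup.Gamma0 N) 2, ⇑F = f := by
  refine ⟨{ toFun := f, slash_action_eq' := ?_, holo' := hol, bdd_at_cusps' := ?_ }, rfl⟩
  · rintro _ ⟨γ, hγ, rfl⟩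
    exact hinv γ hγ
  · intro c hc
    rw [Subgroup.IsArithmetic.isCusp_iff_isCusp_SL2Z] at hc
    rw [OnePoint.isBoundedAt_iff_forall_SL2Z hc]
    exact fun γ _ => hbdd γ

open Classical in
theorem exists_theta_form (p : ℕ) (hp : p.Prime) (hp2 : p ≠ 2) :
    ∃ (F : ModularForm (CongruenceSubgroup.Gamma0 p) 2) (c : ℕ → ℕ), c 0 = 1 ∧
      (∀ n, 1 ≤ n → Even (c n)) ∧
      ∀ z : ℍ, HasSum (fun n => (c n : ℂ) • Function.Periodic.qParam 1 (z : ℂ) ^ n) (F z) := by
  obtain ⟨q, r, h⟩ := exists_aux p hp hp2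
  have : NeZero p := ⟨hp.ne_zero⟩
  have : NeZero q := ⟨h.hq.ne_zero⟩
  set T := data4 1 q p (p * q) with hT
  have h1 := chi_eq_one_of_mem_Iso h
  have hfilter : Finset.univ.filter (· ∈ T.perp (Iso p q r)) =
      Finset.univ.filter (fun b : D4 1 q p (p * q) => PerpCond p q r b) := by
    ext b
    simp only [Finset.mem_filter, Finset.mem_univ, true_and]
    exact mem_perp_Iso_iff h b
  have hinv : ∀ γ ∈ CongruenceSubgroup.Gamma0 p,
      T.thetaI (Iso p q r) ∣[(2 : ℤ)] γ = T.thetaI (Iso p q r) := by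
    intro γ hγ
    refine T.thetaI_slash mu4_eq (Iso p q r) p hp h1
      (fun b hb => chi_pow_eq_one_of_perpCond h b ((mem_perp_Iso_iff h b).1 hb)) ?_ γ hγ
    intro j hj
    -- choose `w'` with `4 q w' ≡ j mod p`
    have hcop : IsCoprime (4 * (q : ℤ)) (p : ℤ) := by
      have h4 : IsCoprime (4 : ℤ) (p : ℤ) := by
        have : IsCoprime (2 : ℤ) (p : ℤ) := by
          rw [Int.isCoprime_iff_gcd_eq_one]
          have := (Nat.coprime_primes Nat.prime_two hp).2 (Ne.symm hp2)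
          simpa [Int.gcd] using this
        have h22 : (4 : ℤ) = 2 * 2 := by norm_num
        rw [h22]
        exact this.mul_left this
      have hq : IsCoprime (q : ℤ) (p : ℤ) := by
        rw [Int.isCoprime_iff_gcd_eq_one]
        have := (Nat.coprime_primes h.hq hp).2 h.hpq
        simpa [Int.gcd] using this
      exact h4.mul_left hq
    obtain ⟨u, v, huv⟩ := hcop
    refine ⟨4 * (q : ℤ) * (u * j), ?_, ?_⟩
    · have : 4 * (q : ℤ) * (u * j) - j = -(v * j) * p := by
        linear_combination j * huv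
      exact (Int.modEq_iff_dvd.2 ⟨v * j, by linear_combination -this⟩)
    · rw [hfilter, gauss_perp h (u * j), kappa_eq h]
      · have hp0 : (p : ℂ) ≠ 0 := Nat.cast_ne_zero.2 hp.ne_zero
        have hq0 : (q : ℂ) ≠ 0 := Nat.cast_ne_zero.2 h.hq.ne_zero
        field_simp
      · intro hd
        have hpp : Prime (p : ℤ) := Nat.prime_iff_prime_int.1 hp
        rcases hpp.dvd_or_dvd hd with hu | hj'
        · have : (p : ℤ) ∣ 1 := by
            rw [← huv]
            exact dvd_add (Dvd.dvd.mul_right hu _) (Dvd.intro_left v rfl)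
          exact hpp.not_dvd_one this
        · exact hj hj'
  obtain ⟨F, hF⟩ := exists_modularForm p (T.thetaI (Iso p q r)) hinv (T.thetaI_hol _)
    (fun γ => T.thetaI_slash_bdd mu4_eq _ γ)
  obtain ⟨c, hc0, hc1, hc⟩ := exists_qexp 1 q p (p * q) (Iso p q r) h1
  exact ⟨F, c, hc0, hc1, fun z => by rw [hF]; exact hc z⟩

/-- FINAL EXPORT of Part A. -/
theorem exists_half_form (p : ℕ) (hp : p.Prime) (hp2 : p ≠ 2) :
    ∃ H : ModularForm (CongruenceSubgroup.Gamma0 p) 2,
      ModularFormClass.qCoeff H 0 = 1 / 2 ∧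
      ∀ n, 1 ≤ n → ∃ z : ℤ, ModularFormClass.qCoeff H n = z := by
  obtain ⟨F, c, hc0, hc1, hc⟩ := exists_theta_form p hp hp2
  have hper := CongruenceSubgroup.one_mem_strictPeriods_Gamma0 p
  have hcoeff : ∀ n, ((1 / 2 : ℂ) * c n) =
      (qExpansion 1 (((1 / 2 : ℂ) • F : ModularForm (CongruenceSubgroup.Gamma0 p) 2) : ℍ → ℂ)).coeff n := by
    intro n
    refine ModularFormClass.qExpansion_coeff_unique (c := fun n => (1 / 2 : ℂ) * c n)
      (f := (1 / 2 : ℂ) • F) one_pos hper (fun τ => ?_) n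
    have := (hc τ).mul_left (1 / 2 : ℂ)
    simpa [smul_eq_mul, mul_assoc] using this
  refine ⟨(1 / 2 : ℂ) • F, ?_, fun n hn => ?_⟩
  · unfold ModularFormClass.qCoeff
    rw [← hcoeff 0, hc0]
    simp
  · unfold ModularFormClass.qCoeff
    obtain ⟨m, hm⟩ := hc1 n hn
    refine ⟨m, ?_⟩
    rw [← hcoeff n, hm]
    push_cast
    ring

end Fermat.Agent.S16.Theta
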