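import Fermat.Agent.S16.Theta.Defs

/-! S16 / Part A: product of theta data. -/

set_option autoImplicit false

open Complex
open UpperHalfPlane hiding I
open scoped Real MatrixGroups ModularForm Manifold

namespace Fermat.Agent.S16.Theta

variable {D D' : Type} [AddCommGroup D] [Fintype D] [DecidableEq D]
  [AddCommGroup D'] [Fintype D'] [DecidableEq D'] {μ μ' : ℍ → ℂ}

/-- product of two theta data -/
noncomputable def ThetaData.prod (T : ThetaData D μ) (T' : ThetaData D' μ') :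
    ThetaData (D × D') (fun z => μ z * μ' z) where
  Θ a z := T.Θ a.1 z * T'.Θ a.2 z
  χ a := T.χ a.1 * T'.χ a.2
  ψ a b := T.ψ a.1 b.1 * T'.ψ a.2 b.2
  κ := T.κ * T'.κ
  χ_ne a := mul_ne_zero (T.χ_ne _) (T'.χ_ne _)
  ψ_add a b c := by
    simp only [Prod.fst_add, Prod.snd_add, T.ψ_add, T'.ψ_add]
    ring
  ψ_symm a b := by rw [T.ψ_symm, T'.ψ_symm]
  χ_add a b := by
    simp only [Prod.fst_add, Prod.snd_add, T.χ_add, T'.χ_add]
    ring
  ψ_self a := by rw [T.ψ_self, T'.ψ_self]; ring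
  orth u := by
    rw [Fintype.sum_prod_type]
    simp only [← Finset.mul_sum, ← Finset.sum_mul, T.orth, T'.orth, Fintype.card_prod,
      Prod.ext_iff, Prod.fst_zero, Prod.snd_zero]
    by_cases h1 : u.1 = 0 <;> by_cases h2 : u.2 = 0 <;> simp [h1, h2]
  κ_sq := by
    have h1 := T.κ_sq
    have h2 := T'.κ_sq
    rw [Fintype.card_prod]
    push_cast
    calc (T.κ * T'.κ) ^ 2 * ((Fintype.card D : ℂ) * (Fintype.card D' : ℂ))
        = (T.κ ^ 2 * (Fintype.card D : ℂ)) * (T'.κ ^ 2 * (Fintype.card D' : ℂ)) := by ring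
      _ = 1 := by rw [h1, h2, one_mul]
  T_law a z := by rw [T.T_law, T'.T_law]; ring
  S_law a z := by
    rw [T.S_law, T'.S_law, Fintype.sum_prod_type]
    have : (∑ b, T.ψ a.1 b * T.Θ b z) * (∑ b', T'.ψ a.2 b' * T'.Θ b' z) =
        ∑ x, ∑ y, T.ψ a.1 x * T'.ψ a.2 y * (T.Θ x z * T'.Θ y z) := by
      rw [Finset.sum_mul_sum]
      refine Finset.sum_congr rfl (fun x _ => Finset.sum_congr rfl (fun y _ => ?_))
      ring
    rw [← this]
    ring
  hol a := (T.hol a.1).mul (T'.hol a.2)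
  bdd a := (T.bdd a.1).mul (T'.bdd a.2)

end Fermat.Agent.S16.Theta
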