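import Fermat.Agent.S16.Theta.OneDimS
import Fermat.Agent.S16.Theta.Prod

/-! S16 / Part A: the four-dimensional diagonal theta data. -/

set_option autoImplicit false

open Complex
open UpperHalfPlane hiding I
open scoped Real MatrixGroups ModularForm Manifold

namespace Fermat.Agent.S16.Theta

/-- discriminant group of the diagonal lattice `⟨2 d0, 2 d1, 2 d2, 2 d3⟩` -/
abbrev D4 (d0 d1 d2 d3 : ℕ) : Type :=
  (ZMod (2 * d0) × ZMod (2 * d1)) × (ZMod (2 * d2) × ZMod (2 * d3))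

/-- automorphy factor in dimension four -/
noncomputable def mu4 (z : ℍ) : ℂ := (mu1 z * mu1 z) * (mu1 z * mu1 z)

theorem mu4_eq (z : ℍ) : mu4 z = -(z : ℂ) ^ 2 := mu1_pow_four z

variable (d0 d1 d2 d3 : ℕ) [NeZero d0] [NeZero d1] [NeZero d2] [NeZero d3]

/-- theta data of the diagonal lattice -/
noncomputable def data4 : ThetaData (D4 d0 d1 d2 d3) mu4 :=
  ((data1 d0).prod (data1 d1)).prod ((data1 d2).prod (data1 d3))

theorem data4_Θ (a : D4 d0 d1 d2 d3) (z : ℍ) :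
    (data4 d0 d1 d2 d3).Θ a z =
      (th d0 a.1.1 z * th d1 a.1.2 z) * (th d2 a.2.1 z * th d3 a.2.2 z) := rfl

theorem data4_χ (a : D4 d0 d1 d2 d3) :
    (data4 d0 d1 d2 d3).χ a =
      (chi1 d0 a.1.1 * chi1 d1 a.1.2) * (chi1 d2 a.2.1 * chi1 d3 a.2.2) := rfl

theorem data4_ψ (a b : D4 d0 d1 d2 d3) :
    (data4 d0 d1 d2 d3).ψ a b =
      (psi1 d0 a.1.1 b.1.1 * psi1 d1 a.1.2 b.1.2) * (psi1 d2 a.2.1 b.2.1 * psi1 d3 a.2.2 b.2.2) :=
  rfl

theorem data4_κ :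
    (data4 d0 d1 d2 d3).κ =
      (1 / (Real.sqrt (2 * d0) : ℂ) * (1 / (Real.sqrt (2 * d1) : ℂ))) *
        (1 / (Real.sqrt (2 * d2) : ℂ) * (1 / (Real.sqrt (2 * d3) : ℂ))) := rfl

end Fermat.Agent.S16.Theta
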