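import Fermat.Agent.S16.Theta.ArithDefs

/-! S16 / Part A: the binary quadratic Gauss sum. -/

set_option autoImplicit false

open Complex
open UpperHalfPlane hiding I
open scoped Real MatrixGroups ModularForm Manifold

namespace Fermat.Agent.S16.Theta

namespace GaussBinary


variable {p : ℕ} [Fact p.Prime]

/-- the complex-valued quadratic character -/
noncomputable def chiC (p : ℕ) [Fact p.Prime] : MulChar (ZMod p) ℂ :=
  (quadraticChar (ZMod p)).ringHomComp (Int.castRingHom ℂ)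

theorem chiC_apply (a : ZMod p) : chiC p a = ((quadraticChar (ZMod p) a : ℤ) : ℂ) := rfl

/-- `∑_x ψ(a x²) = ∑_t (1 + χ t) ψ(a t)` -/
theorem sum_sq_eq (hp2 : p ≠ 2) (f : ZMod p → ℂ) :
    ∑ x : ZMod p, f (x ^ 2) = ∑ t : ZMod p, (chiC p t + 1) * f t := by
  classical
  have hchar : ringChar (ZMod p) ≠ 2 := by rwa [ZMod.ringChar_zmod_n]
  have h := Finset.sum_fiberwise (s := (Finset.univ : Finset (ZMod p)))
    (g := fun x : ZMod p => x ^ 2) (f := fun x => f (x ^ 2))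
  rw [← h]
  refine Finset.sum_congr rfl fun t _ => ?_
  have h1 : ∑ x ∈ Finset.univ.filter (fun x : ZMod p => x ^ 2 = t), f (x ^ 2) =
      ((Finset.univ.filter (fun x : ZMod p => x ^ 2 = t)).card : ℂ) * f t := by
    rw [Finset.sum_congr rfl (g := fun _ => f t)
      (fun x hx => by rw [(Finset.mem_filter.mp hx).2]), Finset.sum_const, nsmul_eq_mul]
  rw [h1]
  congr 1
  have h2 := quadraticChar_card_sqrts hchar t
  have h3 : ({x : ZMod p | x ^ 2 = t}.toFinset) =
      Finset.univ.filter (fun x : ZMod p => x ^ 2 = t) := by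
    ext x; simp
  rw [h3] at h2
  rw [chiC_apply]
  exact_mod_cast h2

theorem quad_gauss (hp2 : p ≠ 2) (a : ZMod p) (ha : a ≠ 0) :
    ∑ x : ZMod p, ZMod.stdAddChar (a * x ^ 2) =
      chiC p a * gaussSum (chiC p) (ZMod.stdAddChar (N := p)) := by
  classical
  rw [sum_sq_eq hp2 (fun t => ZMod.stdAddChar (a * t))]
  simp only [add_mul, one_mul, Finset.sum_add_distrib]
  have h0 : ∑ t : ZMod p, ZMod.stdAddChar (a * t) = (0 : ℂ) := by
    have := AddChar.sum_mulShift a (ZMod.isPrimitive_stdAddChar p)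
    rw [if_neg ha] at this
    simpa only [mul_comm, Nat.cast_zero] using this
  rw [h0, add_zero]
  have hu : IsUnit a := isUnit_iff_ne_zero.mpr ha
  obtain ⟨u, rfl⟩ := hu
  have h1 := gaussSum_mulShift (chiC p) (ZMod.stdAddChar (N := p)) u
  have h2 : gaussSum (chiC p) (AddChar.mulShift (ZMod.stdAddChar (N := p)) (u : ZMod p)) =
      ∑ t : ZMod p, chiC p t * ZMod.stdAddChar ((u : ZMod p) * t) := by
    simp only [gaussSum, AddChar.mulShift_apply]
  rw [← h2, ← h1, ← mul_assoc]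
  have h3 : chiC p (u : ZMod p) * chiC p (u : ZMod p) = 1 := by
    rw [chiC_apply, ← Int.cast_mul, ← sq, quadraticChar_sq_one ha, Int.cast_one]
  rw [h3, one_mul]

theorem gauss_sq (hp2 : p ≠ 2) :
    gaussSum (chiC p) (ZMod.stdAddChar (N := p)) ^ 2 = chiC p (-1) * p := by
  have hchar : ringChar (ZMod p) ≠ 2 := by rwa [ZMod.ringChar_zmod_n]
  have h := gaussSum_sq (χ := chiC p)
    ((MulChar.ringHomComp_ne_one_iff (Int.cast_injective (α := ℂ))).mpr
      (quadraticChar_ne_one hchar))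
    ((quadraticChar_isQuadratic (ZMod p)).comp _) (ZMod.isPrimitive_stdAddChar p)
  rwa [ZMod.card] at h

theorem binary (hp2 : p ≠ 2) (a b : ZMod p) (ha : a ≠ 0) (hb : b ≠ 0)
    (hab : ¬ IsSquare (-(a * b))) :
    ∑ x : ZMod p, ∑ y : ZMod p, ZMod.stdAddChar (a * x ^ 2 + b * y ^ 2) = -(p : ℂ) := by
  simp only [AddChar.map_add_eq_mul]
  rw [← Finset.sum_mul_sum, quad_gauss hp2 a ha, quad_gauss hp2 b hb]
  have h1 : chiC p a * gaussSum (chiC p) (ZMod.stdAddChar (N := p)) *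
      (chiC p b * gaussSum (chiC p) (ZMod.stdAddChar (N := p))) =
      chiC p a * chiC p b * gaussSum (chiC p) (ZMod.stdAddChar (N := p)) ^ 2 := by ring
  rw [h1, gauss_sq hp2, ← mul_assoc, ← map_mul, ← map_mul, mul_neg_one, chiC_apply,
    quadraticChar_neg_one_iff_not_isSquare.mpr hab]
  simp


end GaussBinary

variable {p q r : ℕ} [NeZero p] [NeZero q]

/-- binary quadratic Gauss sum of the anisotropic form `q x² + y²` over `𝔽_p`. -/
theorem gauss_binary (h : Aux p q r) (w : ℤ) (hw : ¬ (p : ℤ) ∣ w) :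
    ∑ x : ZMod p, ∑ y : ZMod p,
      cexp (2 * π * I * ((w : ℂ) * ((q : ℂ) * (x.val : ℂ) ^ 2 + (y.val : ℂ) ^ 2) / p)) = -(p : ℂ) := by
  haveI : Fact p.Prime := ⟨h.hp⟩
  have hw0 : (w : ZMod p) ≠ 0 := by
    rwa [Ne, ZMod.intCast_zmod_eq_zero_iff_dvd]
  have hq0 : (q : ZMod p) ≠ 0 := by
    rw [Ne, ZMod.natCast_eq_zero_iff, Nat.prime_dvd_prime_iff_eq h.hp h.hq]
    exact fun e => h.hpq e.symm
  have hsq : ¬ IsSquare (-(((w : ZMod p) * q) * w)) := by
    intro hs
    apply h.hleg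
    have hw2 : IsSquare ((w : ZMod p)⁻¹ * (w : ZMod p)⁻¹) := ⟨_, rfl⟩
    have := hs.mul hw2
    have e : -(((w : ZMod p) * q) * w) * ((w : ZMod p)⁻¹ * (w : ZMod p)⁻¹) = -(q : ZMod p) := by
      field_simp
    rwa [e] at this
  rw [← GaussBinary.binary h.hp2 ((w : ZMod p) * q) (w : ZMod p) (mul_ne_zero hw0 hq0) hw0 hsq]
  refine Finset.sum_congr rfl fun x _ => Finset.sum_congr rfl fun y _ => ?_
  have e : (w : ZMod p) * q * x ^ 2 + w * y ^ 2 =
      ((w * ((q : ℤ) * (x.val : ℤ) ^ 2 + (y.val : ℤ) ^ 2) : ℤ) : ZMod p) := by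
    push_cast
    rw [ZMod.natCast_zmod_val, ZMod.natCast_zmod_val]
    ring
  rw [e, ZMod.stdAddChar_coe]
  congr 1
  push_cast
  ring

end Fermat.Agent.S16.Theta
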