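import Fermat.Agent.S16.Theta.Defs

/-! S16 / Part A: the finite characters `chi1`, `psi1` (pure algebra with `cexp`). -/

set_option autoImplicit false

open Complex
open UpperHalfPlane hiding I
open scoped Real MatrixGroups ModularForm Manifold

namespace Fermat.Agent.S16.Theta

variable (d : ℕ) [NeZero d]

namespace OneDimAlg

theorem exists_val_eq (m : ℤ) : ∃ k : ℤ, (((m : ZMod (2 * d)).val : ℤ)) = m - (2 * d : ℤ) * k := by
  refine ⟨m / ((2 * d : ℕ) : ℤ), ?_⟩
  rw [ZMod.val_intCast]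
  have := Int.emod_add_mul_ediv m ((2 * d : ℕ) : ℤ)
  push_cast at this ⊢
  linarith

theorem exists_val_eq' (m : ℤ) :
    ∃ k : ℤ, (((m : ZMod (2 * d)).val : ℂ)) = (m : ℂ) - (2 * d : ℂ) * k := by
  obtain ⟨k, hk⟩ := exists_val_eq d m
  refine ⟨k, ?_⟩
  have := congrArg (fun x : ℤ => (x : ℂ)) hk
  push_cast at this
  exact this

theorem intCast_val (a : ZMod (2 * d)) : (((a.val : ℤ)) : ZMod (2 * d)) = a := by
  push_cast
  rw [ZMod.natCast_zmod_val]

end OneDimAlg

open OneDimAlg

theorem chi1_intCast (m : ℤ) :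
    chi1 d (m : ZMod (2 * d)) = cexp (2 * π * I * ((m : ℂ) ^ 2 / (4 * d))) := by
  have hd : (d : ℂ) ≠ 0 := Nat.cast_ne_zero.mpr (NeZero.ne d)
  obtain ⟨k, hk⟩ := exists_val_eq' d m
  unfold chi1
  rw [hk, Complex.exp_eq_exp_iff_exists_int]
  refine ⟨-m * k + d * k ^ 2, ?_⟩
  push_cast
  field_simp
  ring

theorem psi1_intCast (m n : ℤ) :
    psi1 d (m : ZMod (2 * d)) (n : ZMod (2 * d)) = cexp (2 * π * I * ((m : ℂ) * n / (2 * d))) := by
  have hd : (d : ℂ) ≠ 0 := Nat.cast_ne_zero.mpr (NeZero.ne d)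
  obtain ⟨k, hk⟩ := exists_val_eq' d m
  obtain ⟨l, hl⟩ := exists_val_eq' d n
  unfold psi1
  rw [hk, hl, Complex.exp_eq_exp_iff_exists_int]
  refine ⟨-m * l - k * n + 2 * d * k * l, ?_⟩
  push_cast
  field_simp
  ring

theorem chi1_ne (a : ZMod (2 * d)) : chi1 d a ≠ 0 := Complex.exp_ne_zero _

theorem psi1_add (a b c : ZMod (2 * d)) : psi1 d (a + b) c = psi1 d a c * psi1 d b c := by
  rw [← intCast_val d a, ← intCast_val d b, ← intCast_val d c, ← Int.cast_add, psi1_intCast,
    psi1_intCast, psi1_intCast, ← Complex.exp_add]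
  congr 1
  push_cast
  ring

theorem psi1_symm (a b : ZMod (2 * d)) : psi1 d a b = psi1 d b a := by
  unfold psi1
  rw [mul_comm ((a.val : ℂ))]

theorem chi1_add (a b : ZMod (2 * d)) : chi1 d (a + b) = chi1 d a * chi1 d b * psi1 d a b := by
  have hd : (d : ℂ) ≠ 0 := Nat.cast_ne_zero.mpr (NeZero.ne d)
  rw [← intCast_val d a, ← intCast_val d b, ← Int.cast_add, chi1_intCast, chi1_intCast,
    chi1_intCast, psi1_intCast, ← Complex.exp_add, ← Complex.exp_add]
  congr 1
  push_cast
  field_simp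
  ring

theorem psi1_self (a : ZMod (2 * d)) : psi1 d a a = chi1 d a ^ 2 := by
  have hd : (d : ℂ) ≠ 0 := Nat.cast_ne_zero.mpr (NeZero.ne d)
  unfold psi1 chi1
  rw [← Complex.exp_nat_mul]
  congr 1
  push_cast
  field_simp
  ring

theorem psi1_orth (u : ZMod (2 * d)) :
    ∑ b, psi1 d b u = if u = 0 then (Fintype.card (ZMod (2 * d)) : ℂ) else 0 := by
  have hd : (d : ℂ) ≠ 0 := Nat.cast_ne_zero.mpr (NeZero.ne d)
  have hdpos : 0 < d := Nat.pos_of_ne_zero (NeZero.ne d)
  split_ifs with hu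
  · subst hu
    have : ∀ b : ZMod (2 * d), psi1 d b 0 = 1 := by
      intro b
      unfold psi1
      simp
    simp [this]
  · have hshift : psi1 d 1 u * ∑ b, psi1 d b u = ∑ b, psi1 d b u := by
      rw [Finset.mul_sum]
      simp_rw [← psi1_add]
      exact Fintype.sum_equiv (Equiv.addLeft (1 : ZMod (2 * d))) _ _ (fun b => rfl)
    have hne : psi1 d 1 u ≠ 1 := by
      have h1 : psi1 d 1 u = cexp (2 * π * I * (((1 : ℤ) : ℂ) * ((u.val : ℤ) : ℂ) / (2 * d))) := by
        rw [← psi1_intCast, intCast_val]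
        simp
      rw [h1, Ne, Complex.exp_eq_one_iff]
      rintro ⟨n, hn⟩
      have hpi : (2 * π * I : ℂ) ≠ 0 := Complex.two_pi_I_ne_zero
      have h2 : ((u.val : ℤ) : ℂ) = ((n * (2 * d : ℕ) : ℤ) : ℂ) := by
        push_cast
        have h3 : (2 * π * I : ℂ) * ((u.val : ℂ) / (2 * d)) = (2 * π * I) * n := by
          have := hn
          push_cast at this
          rw [one_mul] at this
          rw [this]; ring
        have h4 := mul_left_cancel₀ hpi h3
        field_simp at h4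
        linear_combination h4
      have h5 : (u.val : ℤ) = n * (2 * d : ℕ) := by exact_mod_cast h2
      have hlt : (u.val : ℤ) < (2 * d : ℕ) := by exact_mod_cast ZMod.val_lt u
      have hnn : (0 : ℤ) ≤ u.val := Int.natCast_nonneg _
      have hDpos : (0 : ℤ) < (2 * d : ℕ) := by positivity
      have hn0 : n = 0 := by
        by_contra hn0
        rcases lt_or_gt_of_ne hn0 with h | h
        · have : n * ((2 * d : ℕ) : ℤ) < 0 := mul_neg_of_neg_of_pos h hDpos
          omega
        · have : (1 : ℤ) * ((2 * d : ℕ) : ℤ) ≤ n * ((2 * d : ℕ) : ℤ) :=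
            mul_le_mul_of_nonneg_right (by omega) hDpos.le
          omega
      rw [hn0, zero_mul] at h5
      have : u.val = 0 := by exact_mod_cast h5
      exact hu ((ZMod.val_eq_zero u).mp this)
    have h0 : (psi1 d 1 u - 1) * ∑ b, psi1 d b u = 0 := by
      rw [sub_mul, hshift, one_mul, sub_self]
    exact (mul_eq_zero.mp h0).resolve_left (sub_ne_zero.mpr hne)

end Fermat.Agent.S16.Theta
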