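import Fermat.Agent.S16.Theta.OneDimAlg

/-! S16 / Part A: the one-dimensional theta series with characteristics (analysis). -/

set_option autoImplicit false

open Complex
open UpperHalfPlane hiding I
open scoped Real MatrixGroups ModularForm Manifold

namespace Fermat.Agent.S16.Theta

variable (d : ℕ) [NeZero d]

namespace OneDimAn

omit [NeZero d] in
/-- norm of the general term -/
theorem norm_term (m : ℤ) (w : ℂ) :
    ‖cexp (2 * π * I * ((m : ℂ) ^ 2 / (4 * d)) * w)‖
      = Real.exp (-(2 * π * ((m : ℝ) ^ 2 / (4 * d))) * w.im) := by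
  rw [Complex.norm_exp]
  congr 1
  have : (2 * π * I * ((m : ℂ) ^ 2 / (4 * d)) * w)
      = ((2 * π * ((m : ℝ) ^ 2 / (4 * d)) : ℝ) : ℂ) * (I * w) := by
    push_cast
    ring
  rw [this, Complex.re_ofReal_mul]
  simp

omit [NeZero d] in
theorem norm_term_le (m : ℤ) {w w' : ℂ} (h : w'.im ≤ w.im) :
    ‖cexp (2 * π * I * ((m : ℂ) ^ 2 / (4 * d)) * w)‖
      ≤ ‖cexp (2 * π * I * ((m : ℂ) ^ 2 / (4 * d)) * w')‖ := by
  rw [norm_term, norm_term, Real.exp_le_exp]
  have h0 : 0 ≤ 2 * π * ((m : ℝ) ^ 2 / (4 * d)) := by positivity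
  nlinarith

theorem summable_norm_term {w : ℂ} (hw : 0 < w.im) :
    Summable (fun m : ℤ => ‖cexp (2 * π * I * ((m : ℂ) ^ 2 / (4 * d)) * w)‖) := by
  have hd : (0 : ℝ) < d := by exact_mod_cast Nat.pos_of_ne_zero (NeZero.ne d)
  have him : 0 < (w / (2 * d)).im := by
    have : (w / (2 * d)).im = w.im / (2 * d) := by
      have : (2 * (d : ℂ)) = ((2 * d : ℝ) : ℂ) := by push_cast; ring
      rw [this, Complex.div_ofReal_im]
    rw [this]
    positivity
  have h := ((summable_jacobiTheta₂_term_iff 0 (w / (2 * d))).mpr him).norm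
  refine h.congr fun m => ?_
  congr 1
  rw [jacobiTheta₂_term]
  congr 1
  have hd' : (d : ℂ) ≠ 0 := by exact_mod_cast NeZero.ne d
  field_simp
  ring

theorem summable_ite (a : ZMod (2 * d)) {w : ℂ} (hw : 0 < w.im) :
    Summable (fun m : ℤ => if (m : ZMod (2 * d)) = a then
      cexp (2 * π * I * ((m : ℂ) ^ 2 / (4 * d)) * w) else 0) := by
  refine Summable.of_norm_bounded (summable_norm_term d hw) fun m => ?_
  split_ifs
  · exact le_rfl
  · simp

theorem norm_th_le (a : ZMod (2 * d)) {w : ℂ} (hw : 0 < w.im) :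
    ‖th d a w‖ ≤ ∑' m : ℤ, ‖cexp (2 * π * I * ((m : ℂ) ^ 2 / (4 * d)) * w)‖ := by
  unfold th
  refine tsum_of_norm_bounded (summable_norm_term d hw).hasSum fun m => ?_
  split_ifs
  · exact le_rfl
  · simp

theorem differentiableOn_th (a : ZMod (2 * d)) : DifferentiableOn ℂ (th d a) {w : ℂ | 0 < w.im} := by
  intro w₀ hw₀
  have hw₀' : 0 < w₀.im := hw₀
  set ε : ℝ := w₀.im / 2 with hε
  have hε0 : 0 < ε := by positivity
  have hU : IsOpen {w : ℂ | ε < w.im} := isOpen_lt continuous_const Complex.continuous_im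
  have hεI : 0 < ((ε : ℂ) * I).im := by simpa using hε0
  have key : DifferentiableOn ℂ (fun w : ℂ => ∑' m : ℤ, if (m : ZMod (2 * d)) = a then
      cexp (2 * π * I * ((m : ℂ) ^ 2 / (4 * d)) * w) else 0) {w : ℂ | ε < w.im} := by
    refine differentiableOn_tsum_of_summable_norm (summable_norm_term d hεI) (fun m => ?_) hU
      (fun m w hw => ?_)
    · split_ifs
      · fun_prop
      · exact differentiableOn_const _
    · have hw' : ((ε : ℂ) * I).im ≤ w.im := by
        have : ε < w.im := hw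
        simpa using this.le
      split_ifs
      · exact norm_term_le d m hw'
      · simp
  have hmem : w₀ ∈ {w : ℂ | ε < w.im} := by
    show ε < w₀.im
    rw [hε]
    linarith
  exact (key.differentiableAt (hU.mem_nhds hmem)).differentiableWithinAt

end OneDimAn

open OneDimAn

theorem summable_norm_th_term (z : ℍ) :
    Summable (fun m : ℤ => ‖cexp (2 * π * I * ((m : ℂ) ^ 2 / (4 * d)) * z)‖) :=
  summable_norm_term d z.2

theorem hasSum_th (a : ZMod (2 * d)) (z : ℍ) :
    HasSum (fun m : ℤ => if (m : ZMod (2 * d)) = a then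
      cexp (2 * π * I * ((m : ℂ) ^ 2 / (4 * d)) * z) else 0) (th d a z) :=
  (summable_ite d a z.2).hasSum

theorem th_T (a : ZMod (2 * d)) (z : ℍ) :
    th d a (((1 : ℝ) +ᵥ z : ℍ) : ℂ) = chi1 d a * th d a z := by
  unfold th
  rw [← tsum_mul_left]
  refine tsum_congr fun m => ?_
  split_ifs with h
  · rw [← h, chi1_intCast, ← Complex.exp_add, coe_vadd]
    congr 1
    push_cast
    ring
  · simp

theorem th_hol (a : ZMod (2 * d)) : MDiff (fun z : ℍ => th d a z) := by
  rw [UpperHalfPlane.mdifferentiable_iff]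
  refine (differentiableOn_th d a).congr fun w hw => ?_
  have hw' : 0 < w.im := hw
  simp [Function.comp_apply, ofComplex_apply_of_im_pos hw']

theorem th_bdd (a : ZMod (2 * d)) : IsBoundedAtImInfty (fun z : ℍ => th d a z) := by
  rw [UpperHalfPlane.isBoundedAtImInfty_iff]
  have hI : 0 < (I : ℂ).im := by simp
  refine ⟨∑' m : ℤ, ‖cexp (2 * π * I * ((m : ℂ) ^ 2 / (4 * d)) * I)‖, 1, fun z hz => ?_⟩
  refine (norm_th_le d a z.2).trans ?_
  refine (summable_norm_term d z.2).tsum_le_tsum (fun m => ?_) (summable_norm_term d hI)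
  exact norm_term_le d m (by simpa using hz)

end Fermat.Agent.S16.Theta
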