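import Fermat.Agent.S16.Theta.OneDimAn

/-! S16 / Part A: the inversion formula for the one-dimensional theta series; `data1`. -/

set_option autoImplicit false

open Complex
open UpperHalfPlane hiding I
open scoped Real MatrixGroups ModularForm Manifold

namespace Fermat.Agent.S16.Theta

variable (d : ℕ) [NeZero d]

namespace OneDimS

/-- `th` as a sum over the arithmetic progression `a.val - 2 d n`. -/
theorem th_eq_tsum (a : ZMod (2 * d)) (x : ℂ) :
    th d a x = ∑' n : ℤ,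
      cexp (2 * π * I * ((((a.val : ℤ) - (2 * d : ℕ) * n : ℤ) : ℂ) ^ 2 / (4 * d)) * x) := by
  have hD : ((2 * d : ℕ) : ℤ) ≠ 0 := by
    have := NeZero.ne d
    positivity
  have hinj : Function.Injective (fun n : ℤ => (a.val : ℤ) - ((2 * d : ℕ) : ℤ) * n) := by
    intro n n' h
    have h' : ((2 * d : ℕ) : ℤ) * n = ((2 * d : ℕ) : ℤ) * n' := by
      have h2 : (a.val : ℤ) - ((2 * d : ℕ) : ℤ) * n = (a.val : ℤ) - ((2 * d : ℕ) : ℤ) * n' := h
      linarith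
    exact mul_left_cancel₀ hD h'
  have hcast : ∀ n : ℤ, ((((a.val : ℤ) - ((2 * d : ℕ) : ℤ) * n : ℤ)) : ZMod (2 * d)) = a := by
    intro n
    push_cast
    have h0 : ((2 * d : ℕ) : ZMod (2 * d)) = 0 := ZMod.natCast_self _
    push_cast at h0
    rw [h0, zero_mul, sub_zero, ZMod.natCast_zmod_val]
  unfold th
  rw [← hinj.tsum_eq]
  · refine tsum_congr fun n => ?_
    rw [if_pos (hcast n)]
  · intro m hm
    have hma : (m : ZMod (2 * d)) = a := by
      by_contra h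
      exact hm (if_neg h)
    have h1 : ((m : ℤ) : ZMod (2 * d)) = (((a.val : ℤ)) : ZMod (2 * d)) := by
      rw [hma]; push_cast; rw [ZMod.natCast_zmod_val]
    rw [ZMod.intCast_eq_intCast_iff_dvd_sub] at h1
    obtain ⟨c, hc⟩ := h1
    exact ⟨c, by show (a.val : ℤ) - ((2 * d : ℕ) : ℤ) * c = m; linarith⟩

/-- step (i): the finite Fourier transform of the `th d b` is a Jacobi theta function. -/
theorem sum_psi1_th (a : ZMod (2 * d)) (z : ℍ) :
    ∑ b, psi1 d a b * th d b z = jacobiTheta₂ ((a.val : ℂ) / (2 * d)) ((z : ℂ) / (2 * d)) := by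
  have hd : (d : ℂ) ≠ 0 := Nat.cast_ne_zero.mpr (NeZero.ne d)
  have h1 : ∀ b : ZMod (2 * d), psi1 d a b * th d b z =
      ∑' m : ℤ, psi1 d a b * (if (m : ZMod (2 * d)) = b then
        cexp (2 * π * I * ((m : ℂ) ^ 2 / (4 * d)) * z) else 0) := by
    intro b
    rw [tsum_mul_left]
    rfl
  simp_rw [h1]
  rw [← Summable.tsum_finsetSum (fun b _ => ((hasSum_th d b z).summable.mul_left _))]
  unfold jacobiTheta₂
  refine tsum_congr fun m => ?_
  have h2 : ∑ b : ZMod (2 * d), psi1 d a b * (if (m : ZMod (2 * d)) = b then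
      cexp (2 * π * I * ((m : ℂ) ^ 2 / (4 * d)) * z) else 0) =
      psi1 d a (m : ZMod (2 * d)) * cexp (2 * π * I * ((m : ℂ) ^ 2 / (4 * d)) * z) := by
    simp only [mul_ite, mul_zero]
    rw [Finset.sum_ite_eq]
    simp
  rw [h2]
  have h3 : psi1 d a (m : ZMod (2 * d)) = cexp (2 * π * I * (((a.val : ℤ) : ℂ) * m / (2 * d))) := by
    have := psi1_intCast d (a.val : ℤ) m
    rw [← this]
    congr 1
    push_cast
    rw [ZMod.natCast_zmod_val]
  rw [h3, ← Complex.exp_add, jacobiTheta₂_term]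
  congr 1
  push_cast
  field_simp
  ring

/-- step (iii) -/
theorem th_neg_inv (a : ZMod (2 * d)) (z : ℂ) (hz : z ≠ 0) :
    th d a (-z)⁻¹ = cexp (-π * I * ((a.val : ℂ) / (2 * d)) ^ 2 / (z / (2 * d))) *
      jacobiTheta₂ (((a.val : ℂ) / (2 * d)) / (z / (2 * d))) (-1 / (z / (2 * d))) := by
  have hd : (d : ℂ) ≠ 0 := Nat.cast_ne_zero.mpr (NeZero.ne d)
  rw [th_eq_tsum]
  unfold jacobiTheta₂
  rw [← tsum_mul_left]
  refine tsum_congr fun n => ?_
  rw [jacobiTheta₂_term, ← Complex.exp_add]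
  congr 1
  push_cast
  field_simp
  ring

theorem ofReal_mul_cpow {r : ℝ} (hr : 0 < r) {x : ℂ} (hx : x ≠ 0) (s : ℂ) :
    ((r : ℂ) * x) ^ s = (r : ℂ) ^ s * x ^ s := by
  have hr' : (r : ℂ) ≠ 0 := ofReal_ne_zero.mpr hr.ne'
  rw [cpow_def_of_ne_zero (mul_ne_zero hr' hx), cpow_def_of_ne_zero hr', cpow_def_of_ne_zero hx,
    Complex.log_ofReal_mul hr hx, ← Complex.exp_add, Complex.ofReal_log hr.le]
  congr 1
  ring

/-- step (iv) -/
theorem cpow_half (z : ℍ) :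
    (-I * ((z : ℂ) / (2 * d))) ^ (1 / 2 : ℂ) = mu1 z * (1 / (Real.sqrt (2 * d) : ℂ)) := by
  have hd : (0 : ℝ) < d := Nat.cast_pos.mpr (Nat.pos_of_ne_zero (NeZero.ne d))
  have h2d : (0 : ℝ) < 2 * d := by positivity
  have hz : -I * (z : ℂ) ≠ 0 := mul_ne_zero (neg_ne_zero.mpr I_ne_zero) z.ne_zero
  have h1 : -I * ((z : ℂ) / (2 * d)) = (((2 * d : ℝ)⁻¹ : ℝ) : ℂ) * (-I * (z : ℂ)) := by
    push_cast
    field_simp
  rw [h1, ofReal_mul_cpow (inv_pos.mpr h2d) hz, mu1, mul_comm]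
  congr 1
  have h3 : ((1 / 2 : ℂ)) = ((1 / 2 : ℝ) : ℂ) := by push_cast; rfl
  rw [h3, ← Complex.ofReal_cpow (inv_pos.mpr h2d).le, ← Real.sqrt_eq_rpow, Real.sqrt_inv]
  push_cast
  rw [one_div]

end OneDimS

open OneDimS

theorem th_S (a : ZMod (2 * d)) (z : ℍ) :
    th d a ((ModularGroup.S • z : ℍ) : ℂ) =
      mu1 z * (1 / (Real.sqrt (2 * d) : ℂ)) * ∑ b, psi1 d a b * th d b z := by
  have hd : (0 : ℝ) < d := Nat.cast_pos.mpr (Nat.pos_of_ne_zero (NeZero.ne d))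
  have hS : ((ModularGroup.S • z : ℍ) : ℂ) = (-(z : ℂ))⁻¹ := by
    rw [UpperHalfPlane.modular_S_smul]
  rw [hS, th_neg_inv d a z z.ne_zero, sum_psi1_th, ← cpow_half,
    jacobiTheta₂_functional_equation ((a.val : ℂ) / (2 * d)) ((z : ℂ) / (2 * d))]
  have hne : (-I * ((z : ℂ) / (2 * d))) ^ (1 / 2 : ℂ) ≠ 0 := by
    rw [cpow_half]
    refine mul_ne_zero ?_ ?_
    · rw [mu1, Ne, cpow_eq_zero_iff]
      intro h
      exact mul_ne_zero (neg_ne_zero.mpr I_ne_zero) z.ne_zero h.1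
    · have : Real.sqrt (2 * d) ≠ 0 := (Real.sqrt_pos.mpr (by positivity)).ne'
      exact one_div_ne_zero (ofReal_ne_zero.mpr this)
  generalize (-I * ((z : ℂ) / (2 * d))) ^ (1 / 2 : ℂ) = c at hne ⊢
  generalize cexp (-π * I * ((a.val : ℂ) / (2 * d)) ^ 2 / ((z : ℂ) / (2 * d))) = E
  generalize jacobiTheta₂ (((a.val : ℂ) / (2 * d)) / ((z : ℂ) / (2 * d)))
    (-1 / ((z : ℂ) / (2 * d))) = J
  field_simp

theorem kappa1_sq :
    (1 / (Real.sqrt (2 * d) : ℂ)) ^ 2 * (Fintype.card (ZMod (2 * d)) : ℂ) = 1 := by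
  have hd : (0 : ℝ) < d := Nat.cast_pos.mpr (Nat.pos_of_ne_zero (NeZero.ne d))
  have h2d : (0 : ℝ) ≤ 2 * d := by positivity
  have hdc : (d : ℂ) ≠ 0 := Nat.cast_ne_zero.mpr (NeZero.ne d)
  rw [ZMod.card, one_div, inv_pow, ← ofReal_pow, Real.sq_sqrt h2d]
  push_cast
  field_simp

/-- the one-dimensional theta data -/
noncomputable def data1 : ThetaData (ZMod (2 * d)) mu1 where
  Θ a z := th d a z
  χ := chi1 d
  ψ := psi1 d
  κ := 1 / (Real.sqrt (2 * d) : ℂ)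
  χ_ne := chi1_ne d
  ψ_add := psi1_add d
  ψ_symm := psi1_symm d
  χ_add := chi1_add d
  ψ_self := psi1_self d
  orth := psi1_orth d
  κ_sq := kappa1_sq d
  T_law := th_T d
  S_law := th_S d
  hol := th_hol d
  bdd := th_bdd d

theorem mu1_pow_four (z : ℍ) : (mu1 z * mu1 z) * (mu1 z * mu1 z) = -(z : ℂ) ^ 2 := by
  have hz : -I * (z : ℂ) ≠ 0 := mul_ne_zero (neg_ne_zero.mpr I_ne_zero) z.ne_zero
  have h : mu1 z * mu1 z = -I * (z : ℂ) := by
    rw [mu1, ← cpow_add _ _ hz]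
    norm_num
  rw [h]
  have : (-I * (z : ℂ)) * (-I * (z : ℂ)) = (I * I) * (z : ℂ) ^ 2 := by ring
  rw [this, I_mul_I]
  ring

end Fermat.Agent.S16.Theta
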